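import Fermat.Agent.LR.PD.AsmAdj

/-!
# P-LR / PD, assembly part 4: the consumer interface

`h1pd_form M : L_M →ₗ[ℤ] L_M →ₗ[ℤ] ℤ` (`L_M = h17lr_L M = parabolicHoms ℤ (Gamma0 M) ℤ`),
the Poincaré duality pairing, with (conditionally on the leaf statements of the PD sub-DAG
and on helper17's specifications of `cor₁`, `cor₂`, `T_ℓ`):

* `h1pd_form_rep`      : every functional on `L_M` is `h1pd_form M z ·`;
* `h1pd_form_nondeg`   : left nondegeneracy modulo every integer;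
* `h1pd_form_antisymm` : antisymmetry (unconditional);
* `h1pd_form_adj1`, `h1pd_form_adj2` : `res_i` is adjoint to `cor_i`;
* `h1pd_form_T`        : `T_ℓ` is self-adjoint (`ℓ ∤ N` prime);
* `h1pd_L_finite`, `h1pd_L_free` : `L_M` is a finite free `ℤ`-module.
-/

set_option autoImplicit false
set_option linter.unusedSectionVars false

open scoped MatrixGroups
open ModularGroup CongruenceSubgroup

namespace Fermat.Agent.LR.PD

open Fermat.Agent.S16.Coh Fermat.Agent.LR.PD94 ModularCurve.Period Fermat.Agent.LR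

section

variable (M : ℕ) [NeZero M]

theorem h1pd_B_add_left (φ₁ φ₂ ψ : Additive (Gamma0 M) →+ ℤ) :
    h1pd_B M (φ₁ + φ₂) ψ = h1pd_B M φ₁ ψ + h1pd_B M φ₂ ψ :=
  @h1pd_cs_add_left (Gamma0 M) (Fintype.ofFinite _) (h1pd_neg_one_mem_Gamma0 M) φ₁ φ₂ ψ

theorem h1pd_B_add_right (φ ψ₁ ψ₂ : Additive (Gamma0 M) →+ ℤ) :
    h1pd_B M φ (ψ₁ + ψ₂) = h1pd_B M φ ψ₁ + h1pd_B M φ ψ₂ :=
  @h1pd_cs_add_right (Gamma0 M) (Fintype.ofFinite _) (h1pd_neg_one_mem_Gamma0 M) φ ψ₁ ψ₂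

theorem h1pd_B_antisymm {φ : Additive (Gamma0 M) →+ ℤ} (hφ : IsParabolicHom (Gamma0 M) φ)
    (ψ : Additive (Gamma0 M) →+ ℤ) : h1pd_B M ψ φ = - h1pd_B M φ ψ :=
  @h1pd_cs_antisymm (Gamma0 M) (Fintype.ofFinite _) (h1pd_neg_one_mem_Gamma0 M) φ hφ ψ

/-- the pairing as a biadditive map on `L_M`. -/
noncomputable def h1pd_formAdd : h17lr_L M →+ h17lr_L M →+ ℤ :=
  AddMonoidHom.mk' (fun x => AddMonoidHom.mk'
      (fun y => h1pd_B M (x : Additive (Gamma0 M) →+ ℤ) (y : Additive (Gamma0 M) →+ ℤ))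
      (fun y₁ y₂ => h1pd_B_add_right M _ _ _))
    (fun x₁ x₂ => by
      apply AddMonoidHom.ext
      intro y
      exact h1pd_B_add_left M _ _ _)

/-- **the Poincaré duality pairing** on `L_M`. -/
noncomputable def h1pd_form : h17lr_L M →ₗ[ℤ] h17lr_L M →ₗ[ℤ] ℤ :=
  LinearMap.mk₂ ℤ (fun x y => h1pd_formAdd M x y)
    (fun x₁ x₂ y => by rw [map_add]; rfl)
    (fun n x y => by rw [map_zsmul]; rfl)
    (fun x y₁ y₂ => map_add _ _ _)
    (fun n x y => map_zsmul _ _ _)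

theorem h1pd_form_apply (x y : h17lr_L M) :
    h1pd_form M x y = h1pd_B M (x : Additive (Gamma0 M) →+ ℤ) (y : Additive (Gamma0 M) →+ ℤ) :=
  rfl

/-- **antisymmetry.** -/
theorem h1pd_form_antisymm (x y : h17lr_L M) : h1pd_form M x y = - h1pd_form M y x := by
  rw [h1pd_form_apply, h1pd_form_apply]
  exact h1pd_B_antisymm M y.2 x

/-- `L_M` is finitely generated. -/
theorem h1pd_L_finite (hD : h1pd_DictStatement) : Module.Finite ℤ (h17lr_L M) := by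
  classical
  letI : Fintype (SL(2, ℤ) ⧸ Gamma0 M) := Fintype.ofFinite _
  haveI := h1pd_hom_finite (Gamma0 M) hD (h1pd_neg_one_mem_Gamma0 M)
  haveI : IsNoetherian ℤ (Additive (Gamma0 M) →+ ℤ) := isNoetherian_of_isNoetherianRing_of_finite ℤ _
  infer_instance

/-- `L_M` is torsion-free. -/
theorem h1pd_L_torsionFree : Module.IsTorsionFree ℤ (h17lr_L M) := by
  refine Module.IsTorsionFree.of_smul_eq_zero ?_
  intro n x hnx
  by_cases hn : n = 0
  · exact Or.inl hn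
  · right
    apply Subtype.ext
    apply AddMonoidHom.ext
    intro γ
    have h1 : ((n • x : h17lr_L M) : Additive (Gamma0 M) →+ ℤ) γ = 0 := by rw [hnx]; rfl
    have h2 : n * (x : Additive (Gamma0 M) →+ ℤ) γ = 0 := by simpa using h1
    rcases mul_eq_zero.1 h2 with h3 | h3
    · exact absurd h3 hn
    · exact h3

/-- `L_M` is free. -/
theorem h1pd_L_free (hD : h1pd_DictStatement) : Module.Free ℤ (h17lr_L M) := by
  haveI := h1pd_L_finite M hD
  haveI := h1pd_L_torsionFree M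
  exact Module.free_of_finite_type_torsion_free'

/-- **representability** (first slot). -/
theorem h1pd_form_rep (hD : h1pd_DictStatement) (ξ : h17lr_L M →ₗ[ℤ] ℤ) :
    ∃ z : h17lr_L M, ∀ x : h17lr_L M, ξ x = h1pd_form M z x := by
  classical
  letI : Fintype (SL(2, ℤ) ⧸ Gamma0 M) := Fintype.ofFinite _
  exact h1pd_rep (Gamma0 M) hD (h1pd_neg_one_mem_Gamma0 M) ξ

/-- **nondegeneracy**, also modulo every integer. -/
theorem h1pd_form_nondeg (hD : h1pd_DictStatement) :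
    (∀ z : h17lr_L M, (∀ x, h1pd_form M z x = 0) → z = 0) ∧
    (∀ (p : ℤ) (y₀ : h17lr_L M), (∀ y, p ∣ h1pd_form M y₀ y) → ∃ y₁, y₀ = p • y₁) := by
  haveI := h1pd_L_finite M hD
  haveI := h1pd_L_free M hD
  exact h58g_gen.2 (h17lr_L M) (h1pd_form M) (h1pd_form_rep M hD)

end

section Adj

variable (hD : h1pd_DictStatement) (hC : h1pd_CorStatement) (hA : h1pd_AdjmStatement)
  (hBr : h1pd_BridgeStatement) (hI : h1pd_IsoStatement)
  (hCor1 : h17lr_Cor1Spec) (hCor2 : h17lr_Cor2Spec) (hCR : h17lr_CorRes)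

include hD hC hA hBr hCor1 in
/-- `res₁` is adjoint to `cor₁`. -/
theorem h1pd_form_adj1 (N q : ℕ) [NeZero N] [NeZero q] (hq : q.Prime) (hqN : ¬ q ∣ N)
    (x : h17lr_L N) (y : h17lr_L (N * q)) :
    h1pd_form (N * q) (h17lr_res1 N q x) y = h1pd_form N x (h17lr_cor1 N q y) := by
  rw [h1pd_form_apply, h1pd_form_apply, h17lr_res1_coe]
  exact h1pd_adj_incl hD hC hA hBr N q x x.2 y y.2 _ (hCor1 N q hq hqN y)

include hD hC hA hBr hI hCor2 in
/-- `res₂` is adjoint to `cor₂`. -/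
theorem h1pd_form_adj2 (N q : ℕ) [NeZero N] [NeZero q] (hq : q.Prime) (hqN : ¬ q ∣ N)
    (x : h17lr_L N) (y : h17lr_L (N * q)) :
    h1pd_form (N * q) (h17lr_res2 N q x) y = h1pd_form N x (h17lr_cor2 N q y) := by
  rw [h1pd_form_apply, h1pd_form_apply, h17lr_res2_coe]
  exact h1pd_adj_up hD hC hA hBr hI N q x x.2 y y.2 _ (hCor2 N q hq hqN y)

include hD hC hA hBr hI hCor1 hCor2 hCR in
/-- **`T_ℓ` is self-adjoint** (`ℓ` prime, `ℓ ∤ N`). -/
theorem h1pd_form_T (N ℓ : ℕ) [NeZero N] [NeZero ℓ] (hℓ : ℓ.Prime) (hℓN : ¬ ℓ ∣ N)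
    (x z : h17lr_L N) :
    h1pd_form N (h17lr_T N ℓ x) z = h1pd_form N x (h17lr_T N ℓ z) := by
  obtain ⟨-, -, h12, -⟩ := hCR N ℓ hℓ hℓN x
  obtain ⟨-, -, -, h21⟩ := hCR N ℓ hℓ hℓN z
  have a1 := h1pd_form_adj1 hD hC hA hBr hCor1 N ℓ hℓ hℓN z (h17lr_res2 N ℓ x)
  have a2 := h1pd_form_adj2 hD hC hA hBr hI hCor2 N ℓ hℓ hℓN x (h17lr_res1 N ℓ z)
  rw [← h12, ← h21, ← a2, h1pd_form_antisymm N (h17lr_cor1 N ℓ (h17lr_res2 N ℓ x)) z, ← a1,
    h1pd_form_antisymm (N * ℓ) (h17lr_res1 N ℓ z) (h17lr_res2 N ℓ x), neg_neg]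

end Adj

end Fermat.Agent.LR.PD
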