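import Fermat.Agent.LR.PD.UpDefs

/-!
# P-LR / PD-BRIDGE: helper17's relational transfer is Mathlib's transfer

* `h27b_isCor_transfer`: for `H ≤ G` of finite index, `e : H ≃* K`, `f : K →* G` with
  `f ∘ e = H.subtype`, any `z` with `h17lr_IsCor f y z` is the Mathlib transfer of `y ∘ e`.
* `h27b_bridge : h1pd_BridgeStatement`.
-/

set_option autoImplicit false

open scoped MatrixGroups
open ModularGroup CongruenceSubgroup

namespace Fermat.Agent.LR.PD

open Fermat.Agent.LR

/-- the range of `f` is `H` when `f ∘ e = H.subtype` for an isomorphism `e : H ≃* K`. -/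
theorem h27b_mem_range_iff {G K : Type} [Group G] [Group K] (H : Subgroup G)
    (f : K →* G) (e : H ≃* K) (hfe : ∀ x : H, f (e x) = (x : G)) (g : G) :
    g ∈ f.range ↔ g ∈ H := by
  constructor
  · rintro ⟨k, rfl⟩
    obtain ⟨x, rfl⟩ := e.surjective k
    rw [hfe]
    exact x.2
  · intro hg
    exact ⟨e ⟨g, hg⟩, hfe ⟨g, hg⟩⟩

/-- **relational transfer = Mathlib transfer** (general form). -/
theorem h27b_isCor_transfer {G K : Type} [Group G] [Group K] (H : Subgroup G) [H.FiniteIndex]
    (f : K →* G) (e : H ≃* K) (hfe : ∀ x : H, f (e x) = (x : G))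
    (y : Additive K →+ ℤ) (z : Additive G →+ ℤ) (hz : h17lr_IsCor f y z) (g : G) :
    z (Additive.ofMul g)
      = Multiplicative.toAdd
          (MonoidHom.transfer ((AddMonoidHom.toMultiplicativeRight y).comp e.toMonoidHom) g) := by
  classical
  let T : H.LeftTransversal := default
  rw [MonoidHom.transfer_def _ T g]
  let _ : Fintype (G ⧸ H) := H.fintypeQuotientOfFiniteIndex
  -- the data of the relational transfer
  have hmem : ∀ q : G ⧸ H,
      ((T.2.leftQuotientEquiv q : G))⁻¹ * ((g • T).2.leftQuotientEquiv q : G) ∈ H := fun q =>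
    QuotientGroup.leftRel_apply.mp <|
      Quotient.exact' ((T.2.leftQuotientEquiv.symm_apply_apply q).trans
        ((g • T).2.leftQuotientEquiv.symm_apply_apply q).symm)
  have hβ : ∀ q : G ⧸ H, ((g • T).2.leftQuotientEquiv q : G)
      = g * (T.2.leftQuotientEquiv (g⁻¹ • q) : G) := fun q => by
    rw [Subgroup.smul_apply_eq_smul_apply_inv_smul, smul_eq_mul]
  have hcls : ∀ q : G ⧸ H, ((T.2.leftQuotientEquiv q : G) : G ⧸ H) = q := fun q =>
    Subgroup.IsComplement.quotientGroupMk_leftQuotientEquiv T.2 q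
  have key := hz (G ⧸ H) (fun q => ((T.2.leftQuotientEquiv q : G))⁻¹) (fun q => g⁻¹ • q)
    (fun q => e ⟨_, hmem q⟩) g ?_ ?_
  · rw [key]
    unfold Subgroup.leftTransversals.diff
    simp only [toAdd_prod]
    refine Finset.sum_congr ?_ fun q _ => ?_
    · ext q; simp
    · rfl
  · refine ⟨fun i j hij => ?_, fun γ => ?_⟩
    · rw [h27b_mem_range_iff H f e hfe, inv_inv] at hij
      have := (QuotientGroup.eq (s := H)).2 hij
      rw [hcls, hcls] at this
      exact this
    · refine ⟨((γ⁻¹ : G) : G ⧸ H), ?_⟩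
      rw [h27b_mem_range_iff H f e hfe, inv_inv]
      have := (QuotientGroup.eq (s := H)).1 (hcls ((γ⁻¹ : G) : G ⧸ H)).symm
      rwa [inv_inv] at this
  · intro q
    show ((T.2.leftQuotientEquiv q : G))⁻¹ * g = f (e ⟨_, hmem q⟩)
      * ((T.2.leftQuotientEquiv (g⁻¹ • q) : G))⁻¹
    rw [hfe]
    show _ = ((T.2.leftQuotientEquiv q : G))⁻¹ * ((g • T).2.leftQuotientEquiv q : G)
      * ((T.2.leftQuotientEquiv (g⁻¹ • q) : G))⁻¹
    rw [hβ]
    group

/-- **PD-BRIDGE**. -/
theorem h27b_bridge : h1pd_BridgeStatement := by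
  refine ⟨?_, ?_⟩
  · intro Γ' Γ h _ y z hz
    apply AddMonoidHom.ext
    intro g
    have hfi : (Γ'.subgroupOf Γ).FiniteIndex := inferInstance
    exact h27b_isCor_transfer (Γ'.subgroupOf Γ) (Subgroup.inclusion h)
      (Subgroup.subgroupOfEquivOfLe h) (fun x => rfl) y z hz (Additive.toMul g)
  · intro N q _ _ y z hz
    apply AddMonoidHom.ext
    intro g
    have hfi : ((h1pd_Gup N q).subgroupOf (Gamma0 N)).FiniteIndex := inferInstance
    exact h27b_isCor_transfer ((h1pd_Gup N q).subgroupOf (Gamma0 N)) (h32_up N q)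
      ((Subgroup.subgroupOfEquivOfLe (h1pd_Gup_le N q)).trans (h1pd_upEquiv N q).symm)
      (fun x => by
        show h32_up N q ((h1pd_upEquiv N q).symm
          (Subgroup.subgroupOfEquivOfLe (h1pd_Gup_le N q) x)) = (x : Gamma0 N)
        rw [← h1pd_incl_upEquiv, MulEquiv.apply_symm_apply]
        rfl) y z hz (Additive.toMul g)

end Fermat.Agent.LR.PD
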