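import Fermat.Agent.LR.PD.CorDefs

/-!
# P-LR / PD, leaf PD-ADJM: adjointness of pull-back and push-forward in the coset model

Generic part (any map `π : X' → X` of finite sets which is equivariant for the permutations
`(s', s)` and `(u', u)`):

* `h32a_dot_pb`       : `dot (v ∘ π) z' = dot v (push z')`;
* `h32a_pull_pb`, `h32a_pull_pf` : `pull` commutes with pull-back and push-forward;
* `h32a_wit_pb`, `h32a_wit_pf`   : witnesses are preserved;
* `h32a_pdVal_pb_left`, `h32a_pdVal_pb_right` : `pdVal (pull-back) = pdVal (push-forward)`.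

Coset part: the same statements for `π = h1pd_proj h`, `h : Γ' ≤ Γ`, the permutations
`h1pd_permS`, `h1pd_permU` and the push-forward `h1pd_push h`.  (helper32)
-/

set_option autoImplicit false
set_option linter.unusedSectionVars false

open scoped MatrixGroups
open ModularGroup

namespace Fermat.Agent.LR.PD

section Generic

variable {X' X : Type*} [Fintype X'] [DecidableEq X'] [Fintype X] [DecidableEq X]

/-- pull-back of functions along `π`. -/
def h32a_pb (π : X' → X) (v : X → ℤ) : X' → ℤ := fun x' => v (π x')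

/-- push-forward of functions along `π`: sum over the fibres. -/
def h32a_pf (π : X' → X) (v' : X' → ℤ) : X → ℤ :=
  fun x => ∑ x' ∈ Finset.univ.filter (fun x' => π x' = x), v' x'

omit [Fintype X'] [DecidableEq X'] [Fintype X] [DecidableEq X] in
lemma h32a_pb_sub (π : X' → X) (v w : X → ℤ) :
    h32a_pb π (v - w) = h32a_pb π v - h32a_pb π w := rfl

omit [Fintype X'] [DecidableEq X'] [Fintype X] [DecidableEq X] in
lemma h32a_pb_add (π : X' → X) (v w : X → ℤ) :
    h32a_pb π (v + w) = h32a_pb π v + h32a_pb π w := rfl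

lemma h32a_pf_add (π : X' → X) (v w : X' → ℤ) :
    h32a_pf π (v + w) = h32a_pf π v + h32a_pf π w := by
  funext x
  simp only [h32a_pf, Pi.add_apply, Finset.sum_add_distrib]

lemma h32a_pf_sub (π : X' → X) (v w : X' → ℤ) :
    h32a_pf π (v - w) = h32a_pf π v - h32a_pf π w := by
  funext x
  simp only [h32a_pf, Pi.sub_apply, Finset.sum_sub_distrib]

/-- **adjointness of pull-back and push-forward** for the standard inner products. -/
lemma h32a_dot_pb (π : X' → X) (v : X → ℤ) (z' : X' → ℤ) :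
    dot (h32a_pb π v) z' = dot v (h32a_pf π z') := by
  unfold dot h32a_pb h32a_pf
  rw [← Finset.sum_fiberwise (s := Finset.univ) (g := π) (f := fun x' => v (π x') * z' x')]
  refine Finset.sum_congr rfl fun x _ => ?_
  rw [Finset.mul_sum]
  refine Finset.sum_congr rfl fun x' hx' => ?_
  rw [(Finset.mem_filter.mp hx').2]

lemma h32a_dot_pf (π : X' → X) (v' : X' → ℤ) (z : X → ℤ) :
    dot (h32a_pf π v') z = dot v' (h32a_pb π z) := by
  rw [dot_comm, ← h32a_dot_pb, dot_comm]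

variable {π : X' → X} {g' : Equiv.Perm X'} {g : Equiv.Perm X}

omit [Fintype X'] [DecidableEq X'] [Fintype X] [DecidableEq X] in
lemma h32a_pull_pb (he : ∀ x', π (g' x') = g (π x')) (v : X → ℤ) :
    pull g' (h32a_pb π v) = h32a_pb π (pull g v) := by
  funext x'
  simp only [pull_apply, h32a_pb, he]

lemma h32a_pull_pf (he : ∀ x', π (g' x') = g (π x')) (v' : X' → ℤ) :
    pull g (h32a_pf π v') = h32a_pf π (pull g' v') := by
  funext x
  simp only [pull_apply, h32a_pf]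
  symm
  refine Finset.sum_bij (fun x' _ => g' x') ?_ ?_ ?_ ?_
  · intro x' hx'
    rw [Finset.mem_filter] at hx' ⊢
    exact ⟨Finset.mem_univ _, by rw [he, hx'.2]⟩
  · intro a _ b _ hab
    exact g'.injective hab
  · intro y' hy'
    rw [Finset.mem_filter] at hy'
    refine ⟨g'.symm y', ?_, by simp⟩
    rw [Finset.mem_filter]
    refine ⟨Finset.mem_univ _, ?_⟩
    apply g.injective
    rw [← he, Equiv.apply_symm_apply, hy'.2]
  · intro x' _
    rfl

variable {s' u' : Equiv.Perm X'} {s u : Equiv.Perm X}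

omit [Fintype X'] [DecidableEq X'] [Fintype X] [DecidableEq X] in
/-- witnesses are preserved by pull-back. -/
theorem h32a_wit_pb (hs : ∀ x', π (s' x') = s (π x')) (hu : ∀ x', π (u' x') = u (π x'))
    {v w : X → ℤ} (h : IsWit s u v w) : IsWit s' u' (h32a_pb π v) (h32a_pb π w) := by
  unfold IsWit at *
  rw [h32a_pull_pb hs, h32a_pull_pb hu, h32a_pull_pb hs, ← h32a_pb_sub, ← h32a_pb_sub, h]

/-- witnesses are preserved by push-forward. -/
theorem h32a_wit_pf (hs : ∀ x', π (s' x') = s (π x')) (hu : ∀ x', π (u' x') = u (π x'))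
    {v' w' : X' → ℤ} (h : IsWit s' u' v' w') : IsWit s u (h32a_pf π v') (h32a_pf π w') := by
  unfold IsWit at *
  rw [h32a_pull_pf hs, h32a_pull_pf hu, h32a_pull_pf hs, ← h32a_pf_sub, ← h32a_pf_sub, h]

/-- **model adjointness, pull-back in the first slot.** -/
theorem h32a_pdVal_pb_left (hu : ∀ x', π (u' x') = u (π x')) (v : X → ℤ) (w' : X' → ℤ) :
    pdVal u' (h32a_pb π v) w' = pdVal u v (h32a_pf π w') := by
  unfold pdVal
  rw [h32a_dot_pb, h32a_pf_sub, h32a_pull_pf hu]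

/-- **model adjointness, pull-back in the second slot.** -/
theorem h32a_pdVal_pb_right (hu : ∀ x', π (u' x') = u (π x')) (v' : X' → ℤ) (w : X → ℤ) :
    pdVal u' v' (h32a_pb π w) = pdVal u (h32a_pf π v') w := by
  unfold pdVal
  rw [h32a_pull_pb hu, ← h32a_pb_sub, h32a_dot_pf]

end Generic

/-! ### the coset model -/

section Coset

variable {Γ' Γ : Subgroup SL(2, ℤ)} (h : Γ' ≤ Γ)

/-- the projection `SL(2, ℤ) ⧸ Γ' → SL(2, ℤ) ⧸ Γ` is `SL(2, ℤ)`-equivariant. -/
theorem h32a_proj_smul (g : SL(2, ℤ)) (x' : SL(2, ℤ) ⧸ Γ') :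
    h1pd_proj h (g • x') = g • h1pd_proj h x' := by
  induction x' using QuotientGroup.induction_on with
  | H y => rfl

theorem h32a_proj_permS (x' : SL(2, ℤ) ⧸ Γ') :
    h1pd_proj h (h1pd_permS Γ' x') = h1pd_permS Γ (h1pd_proj h x') :=
  h32a_proj_smul h _ x'

theorem h32a_proj_permU (x' : SL(2, ℤ) ⧸ Γ') :
    h1pd_proj h (h1pd_permU Γ' x') = h1pd_permU Γ (h1pd_proj h x') :=
  h32a_proj_smul h _ x'

variable [Fintype (SL(2, ℤ) ⧸ Γ')] [Fintype (SL(2, ℤ) ⧸ Γ)]
  [DecidableEq (SL(2, ℤ) ⧸ Γ')] [DecidableEq (SL(2, ℤ) ⧸ Γ)]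

theorem h32a_push_eq (v' : SL(2, ℤ) ⧸ Γ' → ℤ) : h1pd_push h v' = h32a_pf (h1pd_proj h) v' := rfl

/-- witnesses are preserved by pull-back along `SL(2, ℤ) ⧸ Γ' → SL(2, ℤ) ⧸ Γ`. -/
theorem h32a_coset_wit_pb {v w : SL(2, ℤ) ⧸ Γ → ℤ}
    (hw : IsWit (h1pd_permS Γ) (h1pd_permU Γ) v w) :
    IsWit (h1pd_permS Γ') (h1pd_permU Γ') (fun x' => v (h1pd_proj h x'))
      (fun x' => w (h1pd_proj h x')) :=
  h32a_wit_pb (h32a_proj_permS h) (h32a_proj_permU h) hw

/-- witnesses are preserved by push-forward. -/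
theorem h32a_coset_wit_push {v' w' : SL(2, ℤ) ⧸ Γ' → ℤ}
    (hw : IsWit (h1pd_permS Γ') (h1pd_permU Γ') v' w') :
    IsWit (h1pd_permS Γ) (h1pd_permU Γ) (h1pd_push h v') (h1pd_push h w') :=
  h32a_wit_pf (h32a_proj_permS h) (h32a_proj_permU h) hw

/-- parabolic vectors are preserved by pull-back and push-forward. -/
theorem h32a_coset_parV_pb {v : SL(2, ℤ) ⧸ Γ → ℤ}
    (hv : IsParV (h1pd_permS Γ) (h1pd_permU Γ) v) :
    IsParV (h1pd_permS Γ') (h1pd_permU Γ') (fun x' => v (h1pd_proj h x')) := by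
  obtain ⟨w, hw⟩ := hv
  exact ⟨_, h32a_coset_wit_pb h hw⟩

theorem h32a_coset_parV_push {v' : SL(2, ℤ) ⧸ Γ' → ℤ}
    (hv : IsParV (h1pd_permS Γ') (h1pd_permU Γ') v') :
    IsParV (h1pd_permS Γ) (h1pd_permU Γ) (h1pd_push h v') := by
  obtain ⟨w, hw⟩ := hv
  exact ⟨_, h32a_coset_wit_push h hw⟩

/-- **model adjointness**: `⟨res v, w'⟩_{Γ'} = ⟨v, cor w'⟩_Γ`. -/
theorem h32a_coset_adj_left (v : SL(2, ℤ) ⧸ Γ → ℤ) (w' : SL(2, ℤ) ⧸ Γ' → ℤ) :
    pdVal (h1pd_permU Γ') (fun x' => v (h1pd_proj h x')) w'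
      = pdVal (h1pd_permU Γ) v (h1pd_push h w') :=
  h32a_pdVal_pb_left (h32a_proj_permU h) v w'

/-- **model adjointness**: `⟨v', res w⟩_{Γ'} = ⟨cor v', w⟩_Γ`. -/
theorem h32a_coset_adj_right (v' : SL(2, ℤ) ⧸ Γ' → ℤ) (w : SL(2, ℤ) ⧸ Γ → ℤ) :
    pdVal (h1pd_permU Γ') v' (fun x' => w (h1pd_proj h x'))
      = pdVal (h1pd_permU Γ) (h1pd_push h v') w :=
  h32a_pdVal_pb_right (h32a_proj_permU h) v' w

end Coset

end Fermat.Agent.LR.PD
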