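import Fermat.Agent.LR.PD.CorDefs

/-!
# P-LR / PD: the leaf **COR** (restriction and transfer through the Shapiro dictionary)

For `Γ' ≤ Γ ≤ SL(2, ℤ)` of finite index:

* pull-back of vectors along `SL(2, ℤ) ⧸ Γ' → SL(2, ℤ) ⧸ Γ` models the restriction of characters
  (`h70c_res`): the cocycle `κ g (proj x')` does the job;
* push-forward (sum over the fibres) models the transfer (`h70c_tr`): the cocycle is the
  fibre sum `∑_{x' ↦ x} κ' g x'`; its value at the base point is a sum over `Γ ⧸ Γ'`, and with a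
  transversal `r` the cocycle identity gives
  `κ' γ (r q • x₀') = ψ ((r q)⁻¹ γ r (γ⁻¹ q)) + f q - f (γ⁻¹ q)`, `f q = κ' (r q) (r q • x₀')`,
  so that the sum over `q` is the transfer of Mathlib.

Main result: `h70c_cor : h1pd_CorStatement`.
-/

set_option autoImplicit false

open scoped MatrixGroups
open ModularGroup

namespace Fermat.Agent.LR.PD

open Fermat.Agent.S16.Coh Fermat.Agent.LR.PD94 ModularCurve.Period

section Proj

variable {Γ' Γ : Subgroup SL(2, ℤ)}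

/-- the projection is equivariant. -/
theorem h70c_proj_smul (h : Γ' ≤ Γ) (g : SL(2, ℤ)) (x' : SL(2, ℤ) ⧸ Γ') :
    h1pd_proj h (g • x') = g • h1pd_proj h x' := by
  induction x' using Quotient.inductionOn' with
  | h a => rfl

theorem h70c_proj_x0 (h : Γ' ≤ Γ) : h1pd_proj h (h94lr_x0 Γ') = h94lr_x0 Γ := rfl

/-- **restriction**: the pull-back of a model is a model of the restriction. -/
theorem h70c_res (h : Γ' ≤ Γ) (v : SL(2, ℤ) ⧸ Γ → ℤ) (φ : Additive Γ →+ ℤ)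
    (hm : h1pd_IsModelOf Γ v φ) :
    h1pd_IsModelOf Γ' (fun x' => v (h1pd_proj h x')) (h1pd_res h φ) := by
  obtain ⟨κ, hκ, hS, hU, hb⟩ := hm
  refine ⟨fun g x' => κ g (h1pd_proj h x'), ?_, ?_, ?_, ?_⟩
  · intro g k y
    show κ (g * k) (h1pd_proj h y) = κ g (h1pd_proj h y) + κ k (h1pd_proj h (g⁻¹ • y))
    rw [h70c_proj_smul, hκ g k]
  · funext x'
    show κ S (h1pd_proj h x') = v (h1pd_proj h (h1pd_permS Γ' x')) - v (h1pd_proj h x')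
    rw [hS, h1pd_permS_apply, h70c_proj_smul]
    rfl
  · funext x'
    show κ (S * T) (h1pd_proj h x') = 0
    rw [hU]
    rfl
  · intro γ
    show κ ((γ : SL(2, ℤ))) (h1pd_proj h (h94lr_x0 Γ')) = h1pd_res h φ (Additive.ofMul γ)
    rw [h70c_proj_x0, h1pd_res_apply]
    exact hb (Subgroup.inclusion h γ)

/-- reindexing of fibre sums by the action. -/
theorem h70c_push_smul (h : Γ' ≤ Γ) [Fintype (SL(2, ℤ) ⧸ Γ')] [DecidableEq (SL(2, ℤ) ⧸ Γ)]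
    (g : SL(2, ℤ)) (F : SL(2, ℤ) ⧸ Γ' → ℤ) (x : SL(2, ℤ) ⧸ Γ) :
    h1pd_push h (fun x' => F (g • x')) x = h1pd_push h F (g • x) := by
  unfold h1pd_push
  refine Finset.sum_bij' (fun x' _ => g • x') (fun x' _ => g⁻¹ • x') ?_ ?_ ?_ ?_ ?_
  · intro a ha
    rw [Finset.mem_filter] at ha ⊢
    exact ⟨Finset.mem_univ _, by rw [h70c_proj_smul, ha.2]⟩
  · intro a ha
    rw [Finset.mem_filter] at ha ⊢
    exact ⟨Finset.mem_univ _, by rw [h70c_proj_smul, ha.2, inv_smul_smul]⟩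
  · intro a _
    exact inv_smul_smul g a
  · intro a _
    exact smul_inv_smul g a
  · intro a _
    rfl

theorem h70c_push_add (h : Γ' ≤ Γ) [Fintype (SL(2, ℤ) ⧸ Γ')] [DecidableEq (SL(2, ℤ) ⧸ Γ)]
    (F G : SL(2, ℤ) ⧸ Γ' → ℤ) (x : SL(2, ℤ) ⧸ Γ) :
    h1pd_push h (fun x' => F x' + G x') x = h1pd_push h F x + h1pd_push h G x := by
  unfold h1pd_push
  exact Finset.sum_add_distrib

theorem h70c_push_sub (h : Γ' ≤ Γ) [Fintype (SL(2, ℤ) ⧸ Γ')] [DecidableEq (SL(2, ℤ) ⧸ Γ)]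
    (F G : SL(2, ℤ) ⧸ Γ' → ℤ) (x : SL(2, ℤ) ⧸ Γ) :
    h1pd_push h (fun x' => F x' - G x') x = h1pd_push h F x - h1pd_push h G x := by
  unfold h1pd_push
  exact Finset.sum_sub_distrib _ _

end Proj

section Emb

variable (Γ' Γ : Subgroup SL(2, ℤ))

/-- the inclusion of `Γ ⧸ Γ'` in `SL(2, ℤ) ⧸ Γ'`. -/
def h70c_emb : (Γ ⧸ Γ'.subgroupOf Γ) → SL(2, ℤ) ⧸ Γ' :=
  Quotient.map' (fun δ : Γ => (δ : SL(2, ℤ))) (by
    intro a b hab
    rw [QuotientGroup.leftRel_apply] at hab ⊢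
    exact Subgroup.mem_subgroupOf.mp hab)

theorem h70c_emb_mk (δ : Γ) :
    h70c_emb Γ' Γ (δ : Γ ⧸ Γ'.subgroupOf Γ) = ((δ : SL(2, ℤ)) : SL(2, ℤ) ⧸ Γ') := rfl

theorem h70c_emb_injective : Function.Injective (h70c_emb Γ' Γ) := by
  intro a b hab
  induction a using Quotient.inductionOn' with
  | h a =>
    induction b using Quotient.inductionOn' with
    | h b =>
      have h1 : (a : SL(2, ℤ))⁻¹ * (b : SL(2, ℤ)) ∈ Γ' := QuotientGroup.eq.mp hab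
      exact QuotientGroup.eq.mpr (Subgroup.mem_subgroupOf.mpr h1)

theorem h70c_emb_smul (γ : Γ) (q : Γ ⧸ Γ'.subgroupOf Γ) :
    h70c_emb Γ' Γ (γ • q) = (γ : SL(2, ℤ)) • h70c_emb Γ' Γ q := by
  induction q using Quotient.inductionOn' with
  | h δ => rfl

variable {Γ' Γ}

theorem h70c_proj_emb (h : Γ' ≤ Γ) (q : Γ ⧸ Γ'.subgroupOf Γ) :
    h1pd_proj h (h70c_emb Γ' Γ q) = h94lr_x0 Γ := by
  induction q using Quotient.inductionOn' with
  | h δ =>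
    show ((δ : SL(2, ℤ)) : SL(2, ℤ) ⧸ Γ) = ((1 : SL(2, ℤ)) : SL(2, ℤ) ⧸ Γ)
    rw [QuotientGroup.eq, mul_one]
    exact Γ.inv_mem δ.2

theorem h70c_emb_surj (h : Γ' ≤ Γ) (x' : SL(2, ℤ) ⧸ Γ') (hx : h1pd_proj h x' = h94lr_x0 Γ) :
    ∃ q, h70c_emb Γ' Γ q = x' := by
  induction x' using Quotient.inductionOn' with
  | h a =>
    have ha : a ∈ Γ := by
      have h1 : a⁻¹ * 1 ∈ Γ := QuotientGroup.eq.mp hx
      rw [mul_one] at h1
      simpa using Γ.inv_mem h1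
    exact ⟨((⟨a, ha⟩ : Γ) : Γ ⧸ Γ'.subgroupOf Γ), rfl⟩

theorem h70c_sum_fibre (h : Γ' ≤ Γ) [Fintype (SL(2, ℤ) ⧸ Γ')] [DecidableEq (SL(2, ℤ) ⧸ Γ)]
    [Fintype (Γ ⧸ Γ'.subgroupOf Γ)] (F : SL(2, ℤ) ⧸ Γ' → ℤ) :
    h1pd_push h F (h94lr_x0 Γ) = ∑ q : Γ ⧸ Γ'.subgroupOf Γ, F (h70c_emb Γ' Γ q) := by
  unfold h1pd_push
  symm
  refine Finset.sum_bij (fun q _ => h70c_emb Γ' Γ q) ?_ ?_ ?_ ?_
  · intro q _
    rw [Finset.mem_filter]
    exact ⟨Finset.mem_univ _, h70c_proj_emb h q⟩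
  · intro a _ b _ hab
    exact h70c_emb_injective Γ' Γ hab
  · intro x' hx'
    rw [Finset.mem_filter] at hx'
    obtain ⟨q, hq⟩ := h70c_emb_surj h x' hx'.2
    exact ⟨q, Finset.mem_univ _, hq⟩
  · intro q _
    rfl

end Emb

section Transfer

/-- the transfer as a sum over the cosets. -/
theorem h70c_transfer_sum {G : Type*} [Group G] {H : Subgroup G} [H.FiniteIndex]
    (ϕ : H →* Multiplicative ℤ) (T : H.LeftTransversal) (g : G) (c : G ⧸ H → ℤ)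
    (hc : ∀ (q : G ⧸ H) (hm : (T.2.leftQuotientEquiv q : G)⁻¹ *
      (g * (T.2.leftQuotientEquiv (g⁻¹ • q) : G)) ∈ H),
      c q = Multiplicative.toAdd (ϕ ⟨_, hm⟩)) :
    Multiplicative.toAdd (MonoidHom.transfer ϕ g) =
      ∑ q ∈ (@Finset.univ (G ⧸ H) H.fintypeQuotientOfFiniteIndex), c q := by
  rw [MonoidHom.transfer_def ϕ T g]
  unfold Subgroup.leftTransversals.diff
  simp only []
  rw [toAdd_prod]
  refine Finset.sum_congr rfl (fun q _ => ?_)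
  have h1 := Subgroup.smul_apply_eq_smul_apply_inv_smul g T q
  rw [smul_eq_mul] at h1
  have hm : (T.2.leftQuotientEquiv q : G)⁻¹ *
      (g * (T.2.leftQuotientEquiv (g⁻¹ • q) : G)) ∈ H := by
    rw [← h1]
    exact QuotientGroup.leftRel_apply.mp (Quotient.exact'
      ((T.2.leftQuotientEquiv.symm_apply_apply q).trans
        ((g • T).2.leftQuotientEquiv.symm_apply_apply q).symm))
  rw [hc q hm]
  congr 2
  exact Subtype.ext (congrArg (fun z => (T.2.leftQuotientEquiv q : G)⁻¹ * z) h1)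

end Transfer

section Main

variable {Γ' Γ : Subgroup SL(2, ℤ)}

/-- the cocycle identity along `a δ b⁻¹` at `a • x₀`. -/
theorem h70c_cocycle_conj {κ' : SL(2, ℤ) → (SL(2, ℤ) ⧸ Γ') → ℤ} (hκ : h94_IsCocycle κ')
    (a b δ : SL(2, ℤ)) (hδ : δ ∈ Γ') :
    κ' (a * δ * b⁻¹) (a • h94lr_x0 Γ') =
      κ' a (a • h94lr_x0 Γ') + κ' δ (h94lr_x0 Γ') - κ' b (b • h94lr_x0 Γ') := by
  have h1 : δ⁻¹ • h94lr_x0 Γ' = h94lr_x0 Γ' := h94lr_smul_x0 Γ' (Γ'.inv_mem hδ)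
  rw [mul_assoc, hκ a, inv_smul_smul, hκ δ, hκ.inv b, h1]
  ring

theorem h70c_emb_eq_smul (T : (Γ'.subgroupOf Γ).LeftTransversal) (q : Γ ⧸ Γ'.subgroupOf Γ) :
    h70c_emb Γ' Γ q = (((T.2.leftQuotientEquiv q : Γ)) : SL(2, ℤ)) • h94lr_x0 Γ' := by
  conv_lhs => rw [← T.2.quotientGroupMk_leftQuotientEquiv q]
  show (((T.2.leftQuotientEquiv q : Γ) : SL(2, ℤ)) : SL(2, ℤ) ⧸ Γ') = _
  show _ = ((((T.2.leftQuotientEquiv q : Γ) : SL(2, ℤ)) * 1 : SL(2, ℤ)) : SL(2, ℤ) ⧸ Γ')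
  rw [mul_one]

/-- **transfer**: the push-forward of a model is a model of the transfer. -/
theorem h70c_tr (h : Γ' ≤ Γ) [Γ'.FiniteIndex] [Fintype (SL(2, ℤ) ⧸ Γ')]
    [Fintype (SL(2, ℤ) ⧸ Γ)] [DecidableEq (SL(2, ℤ) ⧸ Γ')] [DecidableEq (SL(2, ℤ) ⧸ Γ)]
    (v' : SL(2, ℤ) ⧸ Γ' → ℤ) (ψ : Additive Γ' →+ ℤ) (hm : h1pd_IsModelOf Γ' v' ψ) :
    h1pd_IsModelOf Γ (h1pd_push h v') (h1pd_cor h ψ) := by
  obtain ⟨κ', hκ', hS, hU, hb⟩ := hm
  refine ⟨fun g => h1pd_push h (κ' g), ?_, ?_, ?_, ?_⟩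
  · intro g k y
    show h1pd_push h (κ' (g * k)) y = h1pd_push h (κ' g) y + h1pd_push h (κ' k) (g⁻¹ • y)
    rw [← h70c_push_smul, ← h70c_push_add]
    congr 1
    funext x'
    exact hκ' g k x'
  · funext x
    show h1pd_push h (κ' S) x = h1pd_push h v' (h1pd_permS Γ x) - h1pd_push h v' x
    rw [h1pd_permS_apply, ← h70c_push_smul, ← h70c_push_sub, hS]
    rfl
  · funext x
    show h1pd_push h (κ' (S * T)) x = 0
    rw [hU]
    exact Finset.sum_const_zero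
  · intro γ
    show h1pd_push h (κ' γ) (h94lr_x0 Γ) = h1pd_cor h ψ (Additive.ofMul γ)
    let _ : Fintype (Γ ⧸ Γ'.subgroupOf Γ) := Subgroup.fintypeQuotientOfFiniteIndex
    rw [h70c_sum_fibre h]
    let T : (Γ'.subgroupOf Γ).LeftTransversal := default
    let f : Γ ⧸ Γ'.subgroupOf Γ → ℤ :=
      fun q => κ' ((T.2.leftQuotientEquiv q : Γ) : SL(2, ℤ)) (h70c_emb Γ' Γ q)
    have key := h70c_transfer_sum
      ((AddMonoidHom.toMultiplicativeRight ψ).comp (Subgroup.subgroupOfEquivOfLe h).toMonoidHom)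
      T γ (fun q => κ' γ (h70c_emb Γ' Γ q) - f q + f (γ⁻¹ • q)) ?_
    · have h2 : h1pd_cor h ψ (Additive.ofMul γ) = Multiplicative.toAdd (MonoidHom.transfer
          ((AddMonoidHom.toMultiplicativeRight ψ).comp
            (Subgroup.subgroupOfEquivOfLe h).toMonoidHom) γ) := rfl
      rw [h2, key, Finset.sum_add_distrib, Finset.sum_sub_distrib]
      have h3 : ∑ q : Γ ⧸ Γ'.subgroupOf Γ, f (γ⁻¹ • q) = ∑ q : Γ ⧸ Γ'.subgroupOf Γ, f q :=
        Fintype.sum_equiv (MulAction.toPerm γ⁻¹) _ _ (fun _ => rfl)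
      rw [h3]
      ring
    · intro q hmem
      have h4 : Multiplicative.toAdd (((AddMonoidHom.toMultiplicativeRight ψ).comp
          (Subgroup.subgroupOfEquivOfLe h).toMonoidHom) ⟨_, hmem⟩) =
          ψ (Additive.ofMul (Subgroup.subgroupOfEquivOfLe h ⟨_, hmem⟩)) := rfl
      rw [h4, ← hb]
      have hδ : ((T.2.leftQuotientEquiv q : Γ) : SL(2, ℤ))⁻¹ *
          ((γ : SL(2, ℤ)) * ((T.2.leftQuotientEquiv (γ⁻¹ • q) : Γ) : SL(2, ℤ))) ∈ Γ' :=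
        Subgroup.mem_subgroupOf.mp hmem
      have h5 := h70c_cocycle_conj hκ' ((T.2.leftQuotientEquiv q : Γ) : SL(2, ℤ))
        ((T.2.leftQuotientEquiv (γ⁻¹ • q) : Γ) : SL(2, ℤ)) _ hδ
      have h6 : ((T.2.leftQuotientEquiv q : Γ) : SL(2, ℤ)) *
          (((T.2.leftQuotientEquiv q : Γ) : SL(2, ℤ))⁻¹ *
          ((γ : SL(2, ℤ)) * ((T.2.leftQuotientEquiv (γ⁻¹ • q) : Γ) : SL(2, ℤ)))) *
          (((T.2.leftQuotientEquiv (γ⁻¹ • q) : Γ) : SL(2, ℤ)))⁻¹ = (γ : SL(2, ℤ)) := by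
        group
      rw [h6, ← h70c_emb_eq_smul T q, ← h70c_emb_eq_smul T (γ⁻¹ • q)] at h5
      show κ' γ (h70c_emb Γ' Γ q) - f q + f (γ⁻¹ • q) = _
      rw [h5]
      show _ = κ' (((T.2.leftQuotientEquiv q : Γ) : SL(2, ℤ))⁻¹ *
          ((γ : SL(2, ℤ)) * ((T.2.leftQuotientEquiv (γ⁻¹ • q) : Γ) : SL(2, ℤ)))) (h94lr_x0 Γ')
      simp only [f]
      ring

/-- **COR**. -/
theorem h70c_cor : h1pd_CorStatement := by
  intro Γ' Γ h _ _ _ _ _ _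
  exact ⟨fun v φ hm => h70c_res h v φ hm, fun v' ψ hm => h70c_tr h v' ψ hm⟩

end Main

end Fermat.Agent.LR.PD
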