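import Fermat.Agent.LR.PD.Defs

/-!
# P-LR / PD-DICT: the Shapiro dictionary `V / (V^S + V^U) ≅ Hom(Γ, ℤ)`  (helper45)

`Γ ≤ SL(2, ℤ)` of finite index containing `-1`, `X = SL(2, ℤ) ⧸ Γ`, `V = X → ℤ`.
A vector `v ∈ V` determines the cocycle `κ` on `SL(2, ℤ) = ⟨S, U⟩` with `κ S = (S - 1) v`,
`κ U = 0`, and hence the character `φ = κ|_Γ (x₀)` of `Γ`.

Main result: `h45d_dict : h1pd_DictStatement`.
-/

set_option autoImplicit false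

open scoped MatrixGroups
open ModularGroup

namespace Fermat.Agent.LR.PD

open Fermat.Agent.S16.Coh Fermat.Agent.LR.PD94 ModularCurve.Period

section Basic

variable (Γ : Subgroup SL(2, ℤ))

/-- `pull permS` is the composition with `S •`. -/
theorem h45d_pull_permS (hΓ : (-1 : SL(2, ℤ)) ∈ Γ) (v : SL(2, ℤ) ⧸ Γ → ℤ)
    (x : SL(2, ℤ) ⧸ Γ) : pull (h1pd_permS Γ) v x = v ((S : SL(2, ℤ)) • x) := by
  show v ((S : SL(2, ℤ))⁻¹ • x) = _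
  rw [h94_S_inv_smul (h94lr_neg_one_smul Γ hΓ)]

/-- `S • S • x = x` when `-1` acts trivially. -/
theorem h45d_S_smul_S_smul (hΓ : (-1 : SL(2, ℤ)) ∈ Γ) (x : SL(2, ℤ) ⧸ Γ) :
    (S : SL(2, ℤ)) • (S : SL(2, ℤ)) • x = x := by
  have h := h94_S_inv_smul (h94lr_neg_one_smul Γ hΓ) ((S : SL(2, ℤ)) • x)
  rw [inv_smul_smul] at h
  exact h.symm

/-- `pull permS ∘ pull permU` is the composition with `T⁻¹ •`. -/
theorem h45d_pull_permS_permU (hΓ : (-1 : SL(2, ℤ)) ∈ Γ) (w : SL(2, ℤ) ⧸ Γ → ℤ) :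
    pull (h1pd_permS Γ) (pull (h1pd_permU Γ) w) = pull (h94lr_tau Γ) w := by
  funext x
  have hτ : h94lr_tau Γ x = (T : SL(2, ℤ))⁻¹ • x := by
    have := h94lr_tau_pow_apply Γ 1 x
    simpa using this
  rw [pull_apply, pull_apply, pull_apply, h1pd_permS_apply, h1pd_permU_apply, hτ,
    mul_inv_rev, mul_smul, h94_S_inv_smul (h94lr_neg_one_smul Γ hΓ) x,
    h94_S_inv_smul (h94lr_neg_one_smul Γ hΓ) _, h45d_S_smul_S_smul Γ hΓ]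

/-- the character of `Γ` cut out by a cocycle. -/
def h45d_homOf {κ : SL(2, ℤ) → (SL(2, ℤ) ⧸ Γ) → ℤ} (hκ : h94_IsCocycle κ) :
    Additive Γ →+ ℤ where
  toFun γ := κ ((Additive.toMul γ : Γ) : SL(2, ℤ)) (h94lr_x0 Γ)
  map_zero' := hκ.one _
  map_add' γ γ' := by
    show κ (((Additive.toMul γ * Additive.toMul γ' : Γ)) : SL(2, ℤ)) (h94lr_x0 Γ) = _
    rw [Subgroup.coe_mul]
    exact hκ.apply_mul_of_fix _ _ _ (h94lr_smul_x0 Γ (Additive.toMul γ).2)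

theorem h45d_homOf_apply {κ : SL(2, ℤ) → (SL(2, ℤ) ⧸ Γ) → ℤ} (hκ : h94_IsCocycle κ) (γ : Γ) :
    h45d_homOf Γ hκ (Additive.ofMul γ) = κ (γ : SL(2, ℤ)) (h94lr_x0 Γ) := rfl

/-- the coboundary of a function is a cocycle. -/
theorem h45d_isCocycle_cob {X : Type*} [MulAction SL(2, ℤ) X] (w : X → ℤ) :
    h94_IsCocycle (fun (g : SL(2, ℤ)) (y : X) => w (g⁻¹ • y) - w y) := by
  intro g h y
  show w ((g * h)⁻¹ • y) - w y = (w (g⁻¹ • y) - w y) + (w (h⁻¹ • g⁻¹ • y) - w (g⁻¹ • y))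
  rw [mul_inv_rev, mul_smul]
  ring

/-- the sum of two cocycles is a cocycle. -/
theorem h45d_isCocycle_add {X : Type*} [MulAction SL(2, ℤ) X] {κ κ' : SL(2, ℤ) → X → ℤ}
    (hκ : h94_IsCocycle κ) (hκ' : h94_IsCocycle κ') :
    h94_IsCocycle (fun g y => κ g y + κ' g y) := by
  intro g h y
  show κ (g * h) y + κ' (g * h) y = (κ g y + κ' g y) + (κ h (g⁻¹ • y) + κ' h (g⁻¹ • y))
  rw [hκ g h y, hκ' g h y]
  ring

/-! ### clauses (1), (2), (3), (5) -/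

theorem h45d_exists_model (hΓ : (-1 : SL(2, ℤ)) ∈ Γ) (v : SL(2, ℤ) ⧸ Γ → ℤ) :
    ∃ φ, h1pd_IsModelOf Γ v φ := by
  have hneg := h94lr_neg_one_smul Γ hΓ
  obtain ⟨κ, hκ, hS, hU⟩ := h94_exists_cocycle (X := SL(2, ℤ) ⧸ Γ) (A := ℤ) hneg
    (pull (h1pd_permS Γ) v - v) 0
    (by
      intro x
      simp only [Pi.sub_apply, h45d_pull_permS Γ hΓ, h45d_S_smul_S_smul Γ hΓ]
      ring)
    (by intro x; simp)
  exact ⟨h45d_homOf Γ hκ, κ, hκ, hS, hU, fun γ => rfl⟩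

theorem h45d_model_unique (v : SL(2, ℤ) ⧸ Γ → ℤ) (φ φ' : Additive Γ →+ ℤ)
    (h : h1pd_IsModelOf Γ v φ) (h' : h1pd_IsModelOf Γ v φ') : φ = φ' := by
  obtain ⟨κ, hκ, hS, hU, hφ⟩ := h
  obtain ⟨κ', hκ', hS', hU', hφ'⟩ := h'
  have hext := h94_cocycle_ext hκ hκ' (hS.trans hS'.symm) (hU.trans hU'.symm)
  refine AddMonoidHom.ext fun γ => ?_
  have h1 := hφ (Additive.toMul γ)
  have h2 := hφ' (Additive.toMul γ)
  rw [hext] at h1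
  exact h1.symm.trans h2

theorem h45d_model_add (v v' : SL(2, ℤ) ⧸ Γ → ℤ) (φ φ' : Additive Γ →+ ℤ)
    (h : h1pd_IsModelOf Γ v φ) (h' : h1pd_IsModelOf Γ v' φ') :
    h1pd_IsModelOf Γ (v + v') (φ + φ') := by
  obtain ⟨κ, hκ, hS, hU, hφ⟩ := h
  obtain ⟨κ', hκ', hS', hU', hφ'⟩ := h'
  refine ⟨fun g y => κ g y + κ' g y, h45d_isCocycle_add hκ hκ', ?_, ?_, ?_⟩
  · funext y
    show κ S y + κ' S y = _
    rw [hS, hS']
    simp only [Pi.sub_apply, Pi.add_apply, pull_apply]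
    ring
  · funext y
    show κ (S * T) y + κ' (S * T) y = _
    rw [hU, hU']
    simp
  · intro γ
    show κ (γ : SL(2, ℤ)) (h94lr_x0 Γ) + κ' (γ : SL(2, ℤ)) (h94lr_x0 Γ) = _
    rw [hφ, hφ']
    rfl

theorem h45d_model_of_bd (v : SL(2, ℤ) ⧸ Γ → ℤ)
    (h : IsBdV (h1pd_permS Γ) (h1pd_permU Γ) v) : h1pd_IsModelOf Γ v 0 := by
  obtain ⟨a, b, rfl, ha, hb⟩ := h
  refine ⟨fun g y => b (g⁻¹ • y) - b y, h45d_isCocycle_cob b, ?_, ?_, ?_⟩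
  · funext y
    have ha' : a ((S : SL(2, ℤ))⁻¹ • y) = a y := congrFun ha y
    show b ((S : SL(2, ℤ))⁻¹ • y) - b y
      = (a ((S : SL(2, ℤ))⁻¹ • y) + b ((S : SL(2, ℤ))⁻¹ • y)) - (a y + b y)
    rw [ha']
    ring
  · funext y
    have hb' : b (((S : SL(2, ℤ)) * T)⁻¹ • y) = b y := congrFun hb y
    show b (((S : SL(2, ℤ)) * T)⁻¹ • y) - b y = 0
    rw [hb']
    ring
  · intro γ
    show b ((γ : SL(2, ℤ))⁻¹ • h94lr_x0 Γ) - b (h94lr_x0 Γ) = 0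
    rw [h94lr_smul_x0 Γ (Γ.inv_mem γ.2)]
    ring

/-! ### clause (4): surjectivity -/

theorem h45d_exists_vec [Fintype (SL(2, ℤ) ⧸ Γ)] (hΓ : (-1 : SL(2, ℤ)) ∈ Γ)
    (φ : Additive Γ →+ ℤ) : ∃ v, h1pd_IsModelOf Γ v φ := by
  have hneg := h94lr_neg_one_smul Γ hΓ
  have h2 : ∀ a : ℤ, a + a = 0 → a = 0 := fun a h => by omega
  have h3 : ∀ a : ℤ, a + a + a = 0 → a = 0 := fun a h => by omega
  have hκ₀ := h94lr_shap_isCocycle Γ φ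
  have h1 : ∀ x, h94lr_shap Γ φ (-1) x = 0 :=
    h94lr_shap_neg_one Γ hΓ φ (h94lr_hom_neg_one Γ hΓ h2 φ)
  obtain ⟨w, hw⟩ := h94lr_exists_unorm hneg h3 hκ₀ h1
  have hκ := h94lr_isCocycle_add_cob hκ₀ w
  set κ : SL(2, ℤ) → (SL(2, ℤ) ⧸ Γ) → ℤ :=
    fun g y => h94lr_shap Γ φ g y + (w (g⁻¹ • y) - w y) with hκdef
  have hκ1 : ∀ x, κ (-1) x = 0 := by
    intro x
    show h94lr_shap Γ φ (-1) x + (w ((-1 : SL(2, ℤ))⁻¹ • x) - w x) = 0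
    rw [h1 x, inv_neg, inv_one, hneg x]
    ring
  have hrel := h94lr_S_rel_of_neg_one hneg hκ hκ1
  -- `κ S` is orthogonal to the `S`-invariant vectors
  have hperp : ∀ a : SL(2, ℤ) ⧸ Γ → ℤ, pull (h1pd_permS Γ) a = a → dot a (κ S) = 0 := by
    intro a ha
    have hsum : dot a (κ S) = -dot a (κ S) := by
      have e0 : dot a (κ S) = ∑ x, a (h1pd_permS Γ x) * κ S (h1pd_permS Γ x) :=
        (Equiv.sum_comp (h1pd_permS Γ) (fun x => a x * κ S x)).symm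
      have e3 : -dot a (κ S) = ∑ x, -(a x * κ S x) := by
        unfold dot
        rw [Finset.sum_neg_distrib]
      rw [e3, e0]
      refine Finset.sum_congr rfl fun x _ => ?_
      have e1 : a (h1pd_permS Γ x) = a x := congrFun ha x
      have e2 : κ S (h1pd_permS Γ x) = -κ S x := by
        rw [h1pd_permS_apply, h94_S_inv_smul hneg]
        have := hrel x
        linarith
      rw [e1, e2]
      ring
    linarith
  obtain ⟨v, hv⟩ := h1pd_perp (h1pd_permS Γ) (κ S) hperp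
  refine ⟨v, κ, hκ, hv, ?_, ?_⟩
  · funext y
    exact hw y
  · intro γ
    show h94lr_shap Γ φ (γ : SL(2, ℤ)) (h94lr_x0 Γ)
      + (w ((γ : SL(2, ℤ))⁻¹ • h94lr_x0 Γ) - w (h94lr_x0 Γ)) = _
    rw [h94lr_shap_base, h94lr_smul_x0 Γ (Γ.inv_mem γ.2)]
    ring

end Basic

/-! ### matrix lemmas -/

section Mat

theorem h45d_exists_conj_upper (γ : SL(2, ℤ))
    (h : (γ : Matrix (Fin 2) (Fin 2) ℤ).trace ^ 2 = 4) :
    ∃ r : SL(2, ℤ), (r⁻¹ * γ * r) 1 0 = 0 := by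
  have hdet : γ 0 0 * γ 1 1 - γ 0 1 * γ 1 0 = 1 := by
    have := γ.det_coe
    rw [Matrix.det_fin_two] at this
    exact this
  have htr : (γ 0 0 + γ 1 1) ^ 2 = 4 := by
    rw [Matrix.trace_fin_two] at h
    exact h
  by_cases hc : γ 1 0 = 0
  · exact ⟨1, by simpa using hc⟩
  · have hg : 0 < Int.gcd (γ 0 0 - γ 1 1) (2 * γ 1 0) := by
      apply Int.gcd_pos_of_ne_zero_right
      intro h0
      apply hc
      omega
    obtain ⟨x, y, hxy, hX, hY⟩ := Int.exists_gcd_one hg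
    have hg0 : ((Int.gcd (γ 0 0 - γ 1 1) (2 * γ 1 0) : ℕ) : ℤ) ≠ 0 := by
      have : (0 : ℤ) < ((Int.gcd (γ 0 0 - γ 1 1) (2 * γ 1 0) : ℕ) : ℤ) := by exact_mod_cast hg
      exact this.ne'
    generalize ((Int.gcd (γ 0 0 - γ 1 1) (2 * γ 1 0) : ℕ) : ℤ) = g at hX hY hg0
    have hF : γ 1 0 * x ^ 2 + (γ 1 1 - γ 0 0) * x * y - γ 0 1 * y ^ 2 = 0 := by
      have h1 : g ^ 2 * (γ 1 0 * x ^ 2 + (γ 1 1 - γ 0 0) * x * y - γ 0 1 * y ^ 2) = 0 := by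
        have e : g ^ 2 * (γ 1 0 * x ^ 2 + (γ 1 1 - γ 0 0) * x * y - γ 0 1 * y ^ 2)
            = γ 1 0 * (x * g) ^ 2 + (γ 1 1 - γ 0 0) * (x * g) * (y * g)
              - γ 0 1 * (y * g) ^ 2 := by ring
        rw [e, ← hX, ← hY]
        have : γ 1 0 * (γ 0 0 - γ 1 1) ^ 2 + (γ 1 1 - γ 0 0) * (γ 0 0 - γ 1 1) * (2 * γ 1 0)
            - γ 0 1 * (2 * γ 1 0) ^ 2
            = -γ 1 0 * ((γ 0 0 + γ 1 1) ^ 2 - 4 * (γ 0 0 * γ 1 1 - γ 0 1 * γ 1 0)) := by ring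
        rw [this, htr, hdet]
        ring
      rcases mul_eq_zero.mp h1 with h2 | h2
      · exact absurd (pow_eq_zero_iff (two_ne_zero)|>.mp h2) hg0
      · exact h2
    have hbez : x * Int.gcdA x y + y * Int.gcdB x y = 1 := by
      have := Int.gcd_eq_gcd_ab x y
      rw [hxy] at this
      exact_mod_cast this.symm
    have hdetr : (!![x, -Int.gcdB x y; y, Int.gcdA x y] : Matrix (Fin 2) (Fin 2) ℤ).det = 1 := by
      rw [Matrix.det_fin_two_of]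
      linarith
    obtain ⟨r, hr⟩ : ∃ r : SL(2, ℤ),
        (r : Matrix (Fin 2) (Fin 2) ℤ) = !![x, -Int.gcdB x y; y, Int.gcdA x y] :=
      ⟨⟨_, hdetr⟩, rfl⟩
    refine ⟨r, ?_⟩
    simp only [Matrix.SpecialLinearGroup.coe_mul, Matrix.SpecialLinearGroup.coe_inv, hr,
        Matrix.adjugate_fin_two, Matrix.mul_apply, Fin.sum_univ_two]
    simp
    linear_combination hF

theorem h45d_upper_mem (K : Subgroup SL(2, ℤ)) (hT : (T : SL(2, ℤ)) ∈ K)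
    (hneg : (-1 : SL(2, ℤ)) ∈ K) (t : SL(2, ℤ)) (ht : t 1 0 = 0) : t ∈ K := by
  have hdet : t 0 0 * t 1 1 - t 0 1 * t 1 0 = 1 := by
    have := t.det_coe
    rw [Matrix.det_fin_two] at this
    exact this
  rw [ht, mul_zero, sub_zero] at hdet
  rcases Int.mul_eq_one_iff_eq_one_or_neg_one.mp hdet with ⟨h0, h1⟩ | ⟨h0, h1⟩
  · have : t = T ^ (t 0 1) := by
      apply Subtype.ext
      rw [coe_T_zpow]
      ext i j
      fin_cases i <;> fin_cases j <;> simp [h0, h1, ht]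
    rw [this]
    exact K.zpow_mem hT _
  · have : t = -1 * T ^ (-(t 0 1)) := by
      apply Subtype.ext
      rw [neg_mul, one_mul, Matrix.SpecialLinearGroup.coe_neg, coe_T_zpow]
      ext i j
      fin_cases i <;> fin_cases j <;> simp [h0, h1, ht]
    rw [this]
    exact K.mul_mem hneg (K.zpow_mem hT _)

theorem h45d_trace_conj (r t : SL(2, ℤ)) :
    ((r⁻¹ * t * r : SL(2, ℤ)) : Matrix (Fin 2) (Fin 2) ℤ).trace
      = (t : Matrix (Fin 2) (Fin 2) ℤ).trace := by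
  rw [Matrix.SpecialLinearGroup.coe_mul, Matrix.SpecialLinearGroup.coe_mul,
    Matrix.trace_mul_cycle, ← Matrix.SpecialLinearGroup.coe_mul, mul_inv_cancel,
    Matrix.SpecialLinearGroup.coe_one, one_mul]

theorem h45d_trace_T_pow (n : ℕ) :
    ((T ^ n : SL(2, ℤ)) : Matrix (Fin 2) (Fin 2) ℤ).trace = 2 := by
  rw [← zpow_natCast, coe_T_zpow, Matrix.trace_fin_two_of]
  norm_num

end Mat

/-! ### clause (6): parabolic characters and witnesses -/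

section Par

variable (Γ : Subgroup SL(2, ℤ))

/-- the zero set of a cocycle is a subgroup. -/
def h45d_zeroSub {X : Type*} [MulAction SL(2, ℤ) X] {δ : SL(2, ℤ) → X → ℤ}
    (hδ : h94_IsCocycle δ) : Subgroup SL(2, ℤ) where
  carrier := {g | ∀ y, δ g y = 0}
  mul_mem' := by
    intro g h hg hh y
    show δ (g * h) y = 0
    rw [hδ g h y, hg y, hh (g⁻¹ • y)]
    ring
  one_mem' := hδ.one
  inv_mem' := by
    intro g hg y
    show δ g⁻¹ y = 0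
    rw [hδ.inv g y, hg (g • y)]
    ring

theorem h45d_mem_zeroSub {X : Type*} [MulAction SL(2, ℤ) X] {δ : SL(2, ℤ) → X → ℤ}
    (hδ : h94_IsCocycle δ) (g : SL(2, ℤ)) : g ∈ h45d_zeroSub hδ ↔ ∀ y, δ g y = 0 := Iff.rfl

/-- for a model cocycle, `κ T = (S - 1) v`. -/
theorem h45d_model_T (hΓ : (-1 : SL(2, ℤ)) ∈ Γ) {v : SL(2, ℤ) ⧸ Γ → ℤ}
    {κ : SL(2, ℤ) → (SL(2, ℤ) ⧸ Γ) → ℤ} (hκ : h94_IsCocycle κ)
    (hS : κ S = pull (h1pd_permS Γ) v - v) (hU : κ (S * T) = 0) :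
    κ T = pull (h1pd_permS Γ) v - v := by
  funext y
  rw [hκ.apply_T y, hS, hU]
  simp only [Pi.sub_apply, Pi.zero_apply, h45d_pull_permS Γ hΓ, h45d_S_smul_S_smul Γ hΓ]
  ring

/-- for a model cocycle, the `S`-relation. -/
theorem h45d_model_S_rel (hΓ : (-1 : SL(2, ℤ)) ∈ Γ) {v : SL(2, ℤ) ⧸ Γ → ℤ}
    {κ : SL(2, ℤ) → (SL(2, ℤ) ⧸ Γ) → ℤ}
    (hS : κ S = pull (h1pd_permS Γ) v - v) (x : SL(2, ℤ) ⧸ Γ) :
    κ S x + κ S ((S : SL(2, ℤ)) • x) = 0 := by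
  rw [hS]
  simp only [Pi.sub_apply, h45d_pull_permS Γ hΓ, h45d_S_smul_S_smul Γ hΓ]
  ring

theorem h45d_out_smul_x0 (x : SL(2, ℤ) ⧸ Γ) : (Quotient.out x : SL(2, ℤ)) • h94lr_x0 Γ = x := by
  show ((Quotient.out x * 1 : SL(2, ℤ)) : SL(2, ℤ) ⧸ Γ) = x
  rw [mul_one]
  exact QuotientGroup.out_eq' x

theorem h45d_parV_of_parabolic [Fintype (SL(2, ℤ) ⧸ Γ)] [DecidableEq (SL(2, ℤ) ⧸ Γ)]
    (hΓ : (-1 : SL(2, ℤ)) ∈ Γ) (v : SL(2, ℤ) ⧸ Γ → ℤ) (φ : Additive Γ →+ ℤ)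
    (hm : h1pd_IsModelOf Γ v φ) (hφ : IsParabolicHom Γ φ) :
    IsParV (h1pd_permS Γ) (h1pd_permU Γ) v := by
  obtain ⟨κ, hκ, hS, hU, hκφ⟩ := hm
  have hT := h45d_model_T Γ hΓ hκ hS hU
  -- `T ^ n` acts trivially, `n` the order of `τ`
  have hfix : ∀ x : SL(2, ℤ) ⧸ Γ, ((T : SL(2, ℤ)) ^ orderOf (h94lr_tau Γ)) • x = x := by
    intro x
    have h1 := h94lr_tau_pow_apply Γ (orderOf (h94lr_tau Γ)) x
    rw [pow_orderOf_eq_one, Equiv.Perm.one_apply] at h1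
    have h2 : ((T : SL(2, ℤ)) ^ orderOf (h94lr_tau Γ)) • x
        = ((T : SL(2, ℤ)) ^ orderOf (h94lr_tau Γ)) •
          (((T : SL(2, ℤ)) ^ orderOf (h94lr_tau Γ))⁻¹ • x) := congrArg _ h1
    rw [smul_inv_smul] at h2
    exact h2
  -- `κ (T ^ n) = 0`
  have hpow : ∀ x : SL(2, ℤ) ⧸ Γ, κ ((T : SL(2, ℤ)) ^ orderOf (h94lr_tau Γ)) x = 0 := by
    intro x
    have hmem := Fermat.Agent.S21.H.conj_out_mem Γ (hfix x)
    have hx0 : ((Quotient.out x)⁻¹ * (T : SL(2, ℤ)) ^ orderOf (h94lr_tau Γ)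
        * (Quotient.out x)⁻¹⁻¹) • h94lr_x0 Γ = h94lr_x0 Γ := by
      rw [inv_inv]
      exact h94lr_smul_x0 Γ hmem
    have hc := hκ.apply_conj (Quotient.out x)⁻¹ ((T : SL(2, ℤ)) ^ orderOf (h94lr_tau Γ))
      (h94lr_x0 Γ) hx0
    rw [inv_inv, h45d_out_smul_x0] at hc
    rw [← hc]
    have hpar := hφ ⟨_, hmem⟩ (by
      show ((_ : SL(2, ℤ)) : Matrix (Fin 2) (Fin 2) ℤ).trace ^ 2 = 4
      rw [h45d_trace_conj, h45d_trace_T_pow]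
      norm_num)
    rw [← hκφ ⟨_, hmem⟩] at hpar
    exact hpar
  -- orbit sums vanish
  have hsum : ∀ x : SL(2, ℤ) ⧸ Γ,
      ∑ k ∈ Finset.range (orderOf (h94lr_tau Γ)), κ T ((h94lr_tau Γ ^ k) x) = 0 := by
    intro x
    rw [← hpow x, hκ.apply_T_pow]
    refine Finset.sum_congr rfl fun k _ => ?_
    rw [h94lr_tau_pow_apply]
  obtain ⟨Y, hY⟩ := smul_mem_of_orbitSum (h94lr_tau Γ) (κ T) hsum
  have hn : ((orderOf (h94lr_tau Γ) : ℕ) : ℤ) ≠ 0 := by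
    have := orderOf_pos (h94lr_tau Γ)
    exact_mod_cast this.ne'
  obtain ⟨w, hw⟩ := h1pd_sat (h94lr_tau Γ) _ hn (κ T) Y hY
  refine ⟨w, ?_⟩
  unfold IsWit
  rw [h45d_pull_permS_permU Γ hΓ, ← hT, hw]

theorem h45d_parabolic_of_parV (hΓ : (-1 : SL(2, ℤ)) ∈ Γ) (v : SL(2, ℤ) ⧸ Γ → ℤ)
    (φ : Additive Γ →+ ℤ) (hm : h1pd_IsModelOf Γ v φ)
    (hv : IsParV (h1pd_permS Γ) (h1pd_permU Γ) v) : IsParabolicHom Γ φ := by
  obtain ⟨κ, hκ, hS, hU, hκφ⟩ := hm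
  obtain ⟨w, hw⟩ := hv
  have hneg := h94lr_neg_one_smul Γ hΓ
  have hT := h45d_model_T Γ hΓ hκ hS hU
  unfold IsWit at hw
  rw [h45d_pull_permS_permU Γ hΓ, ← hT] at hw
  have hτ : ∀ x, h94lr_tau Γ x = (T : SL(2, ℤ))⁻¹ • x := by
    intro x
    have := h94lr_tau_pow_apply Γ 1 x
    simpa using this
  have hδ := h94lr_isCocycle_add_cob hκ (-w)
  -- `T` and `-1` are in the zero subgroup of `δ = κ - ∂ w`
  have hTmem : (T : SL(2, ℤ)) ∈ h45d_zeroSub hδ := by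
    intro y
    show κ T y + ((-w) ((T : SL(2, ℤ))⁻¹ • y) - (-w) y) = 0
    rw [hw]
    simp only [Pi.sub_apply, Pi.neg_apply, pull_apply, hτ]
    ring
  have hnegmem : (-1 : SL(2, ℤ)) ∈ h45d_zeroSub hδ := by
    intro y
    show κ (-1) y + ((-w) ((-1 : SL(2, ℤ))⁻¹ • y) - (-w) y) = 0
    rw [hκ.neg_one hneg (h45d_model_S_rel Γ hΓ hS) y, inv_neg, inv_one, hneg y]
    ring
  intro γ hγ
  obtain ⟨r, hr⟩ := h45d_exists_conj_upper (γ : SL(2, ℤ)) hγ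
  have htmem := h45d_upper_mem _ hTmem hnegmem _ hr
  have hγeq : r * (r⁻¹ * (γ : SL(2, ℤ)) * r) * r⁻¹ = (γ : SL(2, ℤ)) := by group
  have hx0 : (r * (r⁻¹ * (γ : SL(2, ℤ)) * r) * r⁻¹) • h94lr_x0 Γ = h94lr_x0 Γ := by
    rw [hγeq]
    exact h94lr_smul_x0 Γ γ.2
  have hc := hδ.apply_conj r (r⁻¹ * (γ : SL(2, ℤ)) * r) (h94lr_x0 Γ) hx0
  rw [hγeq] at hc
  have hz := htmem (r⁻¹ • h94lr_x0 Γ)
  have hc' : κ (γ : SL(2, ℤ)) (h94lr_x0 Γ)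
      + ((-w) ((γ : SL(2, ℤ))⁻¹ • h94lr_x0 Γ) - (-w) (h94lr_x0 Γ)) = 0 := hc.trans hz
  rw [h94lr_smul_x0 Γ (Γ.inv_mem γ.2)] at hc'
  rw [← hκφ γ]
  linarith

end Par

/-! ### the dictionary -/

/-- **PD-DICT**: the Shapiro dictionary. -/
theorem h45d_dict : h1pd_DictStatement := by
  intro Γ _ _ hΓ
  refine ⟨h45d_exists_model Γ hΓ, h45d_model_unique Γ, h45d_model_add Γ,
    h45d_exists_vec Γ hΓ, h45d_model_of_bd Γ, fun v φ hm => ⟨?_, ?_⟩⟩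
  · exact h45d_parV_of_parabolic Γ hΓ v φ hm
  · exact h45d_parabolic_of_parV Γ hΓ v φ hm

end Fermat.Agent.LR.PD
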