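import Fermat.Agent.LR.PD.AsmMain
import Fermat.Agent.LR.PD.Dict45
import Fermat.Agent.LR.PD.Cor70
import Fermat.Agent.LR.PD.Adj32
import Fermat.Agent.LR.PD94.Cusp

/-!
# P-LR / PD: the Poincaré duality interface with the leaves plugged in

`L_M = h17lr_L M`, `h1pd_form M : L_M →ₗ[ℤ] L_M →ₗ[ℤ] ℤ`.

Unconditional:
* `h1pd_finite`, `h1pd_free`  : `L_M` is a finite free `ℤ`-module;
* `h1pd_perfect_rep`          : every functional on `L_M` is `h1pd_form M z ·`;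
* `h1pd_perfect_nondeg`       : `h1pd_form M` is left-nondegenerate, also modulo every integer;
* `h1pd_form_antisymm`        : antisymmetry (in `AsmMain.lean`).

Conditional on `h1pd_BridgeStatement` and on helper17's specifications:
* `h1pd_adj1`, `h1pd_adj2`    : `res_i` is adjoint to `cor_i`;
* `h1pd_T_selfadjoint`        : `T_ℓ` is self-adjoint.
-/

set_option autoImplicit false

open scoped MatrixGroups
open ModularGroup CongruenceSubgroup

namespace Fermat.Agent.LR.PD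

open Fermat.Agent.LR

/-- the leaf ADJM (from helper32's `Adj32.lean`). -/
theorem h1pd_adjm : h1pd_AdjmStatement := by
  intro Γ' Γ h _ _ _ _ _
  exact ⟨fun v w hw => h32a_coset_wit_pb h hw, fun v' w' hw => h32a_coset_wit_push h hw,
    fun v' w => h32a_coset_adj_right h v' w⟩

instance h1pd_finite (M : ℕ) [NeZero M] : Module.Finite ℤ (h17lr_L M) :=
  h1pd_L_finite M h45d_dict

instance h1pd_free (M : ℕ) [NeZero M] : Module.Free ℤ (h17lr_L M) :=
  h1pd_L_free M h45d_dict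

/-- **perfectness, part 1**: every functional on `L_M` is `h1pd_form M z ·`. -/
theorem h1pd_perfect_rep (M : ℕ) [NeZero M] (ξ : h17lr_L M →ₗ[ℤ] ℤ) :
    ∃ z : h17lr_L M, ∀ x : h17lr_L M, ξ x = h1pd_form M z x :=
  h1pd_form_rep M h45d_dict ξ

/-- **perfectness, part 2**: left nondegeneracy, also modulo every integer. -/
theorem h1pd_perfect_nondeg (M : ℕ) [NeZero M] :
    (∀ z : h17lr_L M, (∀ x, h1pd_form M z x = 0) → z = 0) ∧
    (∀ (p : ℤ) (y₀ : h17lr_L M), (∀ y, p ∣ h1pd_form M y₀ y) → ∃ y₁, y₀ = p • y₁) :=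
  h1pd_form_nondeg M h45d_dict

/-- `res₁` is adjoint to `cor₁`. -/
theorem h1pd_adj1 (hBr : h1pd_BridgeStatement) (hCor1 : h17lr_Cor1Spec)
    (N q : ℕ) [NeZero N] [NeZero q] (hq : q.Prime) (hqN : ¬ q ∣ N)
    (x : h17lr_L N) (y : h17lr_L (N * q)) :
    h1pd_form (N * q) (h17lr_res1 N q x) y = h1pd_form N x (h17lr_cor1 N q y) :=
  h1pd_form_adj1 h45d_dict h70c_cor h1pd_adjm hBr hCor1 N q hq hqN x y

/-- `res₂` is adjoint to `cor₂`. -/
theorem h1pd_adj2 (hBr : h1pd_BridgeStatement) (hCor2 : h17lr_Cor2Spec)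
    (N q : ℕ) [NeZero N] [NeZero q] (hq : q.Prime) (hqN : ¬ q ∣ N)
    (x : h17lr_L N) (y : h17lr_L (N * q)) :
    h1pd_form (N * q) (h17lr_res2 N q x) y = h1pd_form N x (h17lr_cor2 N q y) :=
  h1pd_form_adj2 h45d_dict h70c_cor h1pd_adjm hBr PD94.h94lr_iso hCor2 N q hq hqN x y

/-- **`T_ℓ` is self-adjoint.** -/
theorem h1pd_T_selfadjoint (hBr : h1pd_BridgeStatement) (hCor1 : h17lr_Cor1Spec)
    (hCor2 : h17lr_Cor2Spec) (hCR : h17lr_CorRes)
    (N ℓ : ℕ) [NeZero N] [NeZero ℓ] (hℓ : ℓ.Prime) (hℓN : ¬ ℓ ∣ N) (x z : h17lr_L N) :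
    h1pd_form N (h17lr_T N ℓ x) z = h1pd_form N x (h17lr_T N ℓ z) :=
  h1pd_form_T h45d_dict h70c_cor h1pd_adjm hBr PD94.h94lr_iso hCor1 hCor2 hCR N ℓ hℓ hℓN x z

end Fermat.Agent.LR.PD
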