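import Fermat.Agent.LR.PD.CorDefs
import Fermat.Agent.LR.CohDefs

/-!
# P-LR / PD: the group `Γ⁰ = Γ₀(N) ∩ Γ⁰(q)` and conjugation by `diag(q, 1)`
(frozen definitions + leaf statements `h1pd_AdjmStatement`, `h1pd_BridgeStatement`)

* `h1pd_upHom N q : Γ₀(Nq) →* SL(2, ℤ)`, `γ ↦ g γ g⁻¹` (`g = diag(q, 1)`), the composite of
  helper32's `h32_up N q` with the inclusion of `Γ₀(N)`;
* `h1pd_Gup N q` its range (`= Γ₀(N) ∩ Γ⁰(q)`), of finite index, containing `-1`,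
  contained in `Γ₀(N)`;
* `h1pd_upEquiv N q : Γ₀(Nq) ≃* h1pd_Gup N q`, which satisfies `h1pd_IsConjDiag q`.
-/

set_option autoImplicit false

open scoped MatrixGroups
open ModularGroup CongruenceSubgroup

namespace Fermat.Agent.LR.PD

open Fermat.Agent.S16.Coh Fermat.Agent.LR.PD94 ModularCurve.Period Fermat.Agent.LR

section Up

variable (N q : ℕ) [NeZero q]

/-- conjugation by `diag(q, 1)`, as a homomorphism `Γ₀(Nq) →* SL(2, ℤ)`. -/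
noncomputable def h1pd_upHom : Gamma0 (N * q) →* SL(2, ℤ) :=
  (Gamma0 N).subtype.comp (h32_up N q)

theorem h1pd_upHom_apply (γ : Gamma0 (N * q)) :
    h1pd_upHom N q γ = ((h32_up N q γ : Gamma0 N) : SL(2, ℤ)) := rfl

theorem h1pd_upHom_injective : Function.Injective (h1pd_upHom N q) :=
  (Subgroup.subtype_injective _).comp (h32_up_injective N q)

/-- `Γ⁰ = Γ₀(N) ∩ Γ⁰(q)`, the image of `Γ₀(Nq)` under conjugation by `diag(q, 1)`. -/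
noncomputable def h1pd_Gup : Subgroup SL(2, ℤ) := (h1pd_upHom N q).range

theorem h1pd_Gup_le : h1pd_Gup N q ≤ Gamma0 N := by
  rintro _ ⟨γ, rfl⟩
  exact (h32_up N q γ).2

/-- conjugation by `diag(q, 1)` as an isomorphism `Γ₀(Nq) ≃* Γ⁰`. -/
noncomputable def h1pd_upEquiv : Gamma0 (N * q) ≃* h1pd_Gup N q :=
  MonoidHom.ofInjective (h1pd_upHom_injective N q)

theorem h1pd_upEquiv_coe (γ : Gamma0 (N * q)) :
    ((h1pd_upEquiv N q γ : h1pd_Gup N q) : SL(2, ℤ)) = ((h32_up N q γ : Gamma0 N) : SL(2, ℤ)) :=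
  rfl

theorem h1pd_incl_upEquiv (γ : Gamma0 (N * q)) :
    Subgroup.inclusion (h1pd_Gup_le N q) (h1pd_upEquiv N q γ) = h32_up N q γ := rfl

theorem h1pd_upMat (γ : Gamma0 (N * q)) :
    (((h32_up N q γ : Gamma0 N) : SL(2, ℤ)) : Matrix (Fin 2) (Fin 2) ℤ)
      = !![(γ : SL(2, ℤ)) 0 0, q * (γ : SL(2, ℤ)) 0 1;
          (γ : SL(2, ℤ)) 1 0 / q, (γ : SL(2, ℤ)) 1 1] := rfl

theorem h1pd_upEquiv_isConjDiag : h1pd_IsConjDiag q (h1pd_upEquiv N q) := by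
  intro γ
  have hq0 : (q : ℤ) ≠ 0 := Nat.cast_ne_zero.mpr (NeZero.ne q)
  have hmem := (h32_mem_Gamma0_iff (N * q) γ.1).1 γ.2
  have hq : (q : ℤ) ∣ (γ : SL(2, ℤ)) 1 0 :=
    Dvd.dvd.trans ⟨(N : ℤ), by push_cast; ring⟩ hmem
  have e : ∀ i j, ((h1pd_upEquiv N q γ : h1pd_Gup N q) : SL(2, ℤ)) i j
      = (!![(γ : SL(2, ℤ)) 0 0, q * (γ : SL(2, ℤ)) 0 1;
          (γ : SL(2, ℤ)) 1 0 / q, (γ : SL(2, ℤ)) 1 1] : Matrix (Fin 2) (Fin 2) ℤ) i j := by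
    intro i j
    rw [h1pd_upEquiv_coe, ← h1pd_upMat]
  refine ⟨?_, ?_, ?_, ?_⟩
  · rw [e]; rfl
  · rw [e]; rfl
  · rw [e]
    show (q : ℤ) * ((γ : SL(2, ℤ)) 1 0 / q) = _
    exact Int.mul_ediv_cancel' hq
  · rw [e]; rfl

theorem h1pd_neg_one_mem_Gup : (-1 : SL(2, ℤ)) ∈ h1pd_Gup N q := by
  have h : (-1 : SL(2, ℤ)) ∈ Gamma0 (N * q) := by
    rw [h32_mem_Gamma0_iff]
    simp
  refine ⟨⟨-1, h⟩, ?_⟩
  rw [h1pd_upHom_apply]
  apply Matrix.SpecialLinearGroup.ext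
  intro i j
  have e := congrFun (congrFun (h1pd_upMat N q ⟨-1, h⟩) i) j
  rw [e]
  fin_cases i <;> fin_cases j <;> simp

theorem h1pd_neg_one_mem_Gamma0 (M : ℕ) : (-1 : SL(2, ℤ)) ∈ Gamma0 M := by
  rw [h32_mem_Gamma0_iff]
  simp

theorem h1pd_Gamma_le_Gup : Gamma (N * q) ≤ h1pd_Gup N q := by
  intro γ hγ
  rw [Gamma_mem] at hγ
  obtain ⟨-, h01, h10, -⟩ := hγ
  have hq0 : (q : ℤ) ≠ 0 := Nat.cast_ne_zero.mpr (NeZero.ne q)
  have hb : ((N * q : ℕ) : ℤ) ∣ γ 0 1 := (ZMod.intCast_zmod_eq_zero_iff_dvd _ _).1 h01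
  have hc : ((N * q : ℕ) : ℤ) ∣ γ 1 0 := (ZMod.intCast_zmod_eq_zero_iff_dvd _ _).1 h10
  have hqb : (q : ℤ) ∣ γ 0 1 := Dvd.dvd.trans ⟨(N : ℤ), by push_cast; ring⟩ hb
  obtain ⟨b', hb'⟩ := hqb
  have hdet := γ.det_coe
  rw [Matrix.det_fin_two] at hdet
  let γ' : SL(2, ℤ) := ⟨!![γ 0 0, b'; q * γ 1 0, γ 1 1], by
    rw [Matrix.det_fin_two_of]
    rw [hb'] at hdet
    linear_combination hdet⟩
  have hγ' : γ' ∈ Gamma0 (N * q) := by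
    rw [h32_mem_Gamma0_iff]
    show ((N * q : ℕ) : ℤ) ∣ q * γ 1 0
    exact Dvd.dvd.mul_left hc _
  refine ⟨⟨γ', hγ'⟩, ?_⟩
  rw [h1pd_upHom_apply]
  apply Matrix.SpecialLinearGroup.ext
  intro i j
  have e := congrFun (congrFun (h1pd_upMat N q ⟨γ', hγ'⟩) i) j
  rw [e]
  fin_cases i <;> fin_cases j
  · rfl
  · show (q : ℤ) * b' = γ 0 1
    exact hb'.symm
  · show (q : ℤ) * γ 1 0 / q = γ 1 0
    exact Int.mul_ediv_cancel_left _ hq0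
  · rfl

instance h1pd_instFiniteIndexGup [NeZero N] : (h1pd_Gup N q).FiniteIndex :=
  Subgroup.finiteIndex_of_le (h1pd_Gamma_le_Gup N q)

end Up

/-! ### leaf statements -/

/-- **ADJM** (model adjointness): pull-back and push-forward preserve witnesses, and are
adjoint for the model pairing. -/
def h1pd_AdjmStatement : Prop :=
  ∀ (Γ' Γ : Subgroup SL(2, ℤ)) (h : Γ' ≤ Γ)
    [Fintype (SL(2, ℤ) ⧸ Γ')] [Fintype (SL(2, ℤ) ⧸ Γ)]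
    [DecidableEq (SL(2, ℤ) ⧸ Γ')] [DecidableEq (SL(2, ℤ) ⧸ Γ)],
    (-1 : SL(2, ℤ)) ∈ Γ' →
    (∀ v w : SL(2, ℤ) ⧸ Γ → ℤ, IsWit (h1pd_permS Γ) (h1pd_permU Γ) v w →
      IsWit (h1pd_permS Γ') (h1pd_permU Γ') (fun x' => v (h1pd_proj h x'))
        (fun x' => w (h1pd_proj h x'))) ∧
    (∀ v' w' : SL(2, ℤ) ⧸ Γ' → ℤ, IsWit (h1pd_permS Γ') (h1pd_permU Γ') v' w' →
      IsWit (h1pd_permS Γ) (h1pd_permU Γ) (h1pd_push h v') (h1pd_push h w')) ∧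
    (∀ (v' : SL(2, ℤ) ⧸ Γ' → ℤ) (w : SL(2, ℤ) ⧸ Γ → ℤ),
      pdVal (h1pd_permU Γ') v' (fun x' => w (h1pd_proj h x'))
        = pdVal (h1pd_permU Γ) (h1pd_push h v') w)

/-- **BRIDGE**: helper17's relational transfer `h17lr_IsCor` along an inclusion is Mathlib's
transfer `h1pd_cor`; along `f ∘ E` (`E` an isomorphism) it is the transfer of `y ∘ E⁻¹`. -/
def h1pd_BridgeStatement : Prop :=
  (∀ (Γ' Γ : Subgroup SL(2, ℤ)) (h : Γ' ≤ Γ) [Γ'.FiniteIndex]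
    (y : Additive Γ' →+ ℤ) (z : Additive Γ →+ ℤ),
    h17lr_IsCor (Subgroup.inclusion h) y z → z = h1pd_cor h y) ∧
  (∀ (N q : ℕ) [NeZero N] [NeZero q]
    (y : Additive (Gamma0 (N * q)) →+ ℤ) (z : Additive (Gamma0 N) →+ ℤ),
    h17lr_IsCor (h32_up N q) y z →
      z = h1pd_cor (h1pd_Gup_le N q)
        (y.comp (MonoidHom.toAdditive (h1pd_upEquiv N q).symm.toMonoidHom)))

end Fermat.Agent.LR.PD
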