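import Fermat.Agent.LR.PD.AsmRep
import Fermat.Agent.LR.PD.UpDefs

/-!
# P-LR / PD, assembly part 3: adjointness of restriction and transfer
(conditional on the leaves DICT, COR, ADJM, BRIDGE, ISO)

* `h1pd_adj`      : `h1pd_cs Γ' (res x) y = h1pd_cs Γ x (cor y)` for `Γ' ≤ Γ`;
* `h1pd_B M`      : the pairing on the characters of `Γ₀(M)`;
* `h1pd_adj_incl`, `h1pd_adj_up` : adjointness in helper17's relational form, along
  `h32_incl N q` and along `h32_up N q` (conjugation by `diag(q, 1)`).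
-/

set_option autoImplicit false
set_option linter.unusedSectionVars false

open scoped MatrixGroups
open ModularGroup CongruenceSubgroup

namespace Fermat.Agent.LR.PD

open Fermat.Agent.S16.Coh Fermat.Agent.LR.PD94 ModularCurve.Period Fermat.Agent.LR

/-- **adjointness of restriction and transfer** for `Γ' ≤ Γ`. -/
theorem h1pd_adj (hD : h1pd_DictStatement) (hC : h1pd_CorStatement) (hA : h1pd_AdjmStatement)
    (Γ' Γ : Subgroup SL(2, ℤ)) (h : Γ' ≤ Γ) [Γ'.FiniteIndex]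
    [Fintype (SL(2, ℤ) ⧸ Γ')] [Fintype (SL(2, ℤ) ⧸ Γ)]
    [DecidableEq (SL(2, ℤ) ⧸ Γ')] [DecidableEq (SL(2, ℤ) ⧸ Γ)]
    (hΓ' : (-1 : SL(2, ℤ)) ∈ Γ')
    (x : Additive Γ →+ ℤ) (hx : IsParabolicHom Γ x)
    (y : Additive Γ' →+ ℤ) (hy : IsParabolicHom Γ' y) :
    h1pd_cs Γ' (h1pd_res h x) y = h1pd_cs Γ x (h1pd_cor h y) := by
  have hΓ : (-1 : SL(2, ℤ)) ∈ Γ := h hΓ'
  obtain ⟨-, -, -, hsurj, -, hpar⟩ := hD Γ hΓ
  obtain ⟨-, -, -, hsurj', -, hpar'⟩ := hD Γ' hΓ'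
  obtain ⟨v, hv⟩ := hsurj x
  obtain ⟨w, hw⟩ := (hpar v x hv).1 hx
  obtain ⟨v', hv'⟩ := hsurj' y
  obtain ⟨w', hw'⟩ := (hpar' v' y hv').1 hy
  obtain ⟨hres, hcor⟩ := hC Γ' Γ h hΓ'
  obtain ⟨hA1, hA2, hA3⟩ := hA Γ' Γ h hΓ'
  rw [h1pd_cs_model Γ' hΓ' (hres v x hv) hv' (hA1 v w hw) hw',
    h1pd_cs_model Γ hΓ hv (hcor v' y hv') hw (hA2 v' w' hw')]
  exact hA3 v' w

section Gamma0

/-- **the pairing** on the characters of `Γ₀(M)`. -/
noncomputable def h1pd_B (M : ℕ) [NeZero M] (φ ψ : Additive (Gamma0 M) →+ ℤ) : ℤ :=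
  @h1pd_cs (Gamma0 M) (Fintype.ofFinite _) φ ψ

/-- adjointness along the inclusion `Γ₀(Nq) ≤ Γ₀(N)`, in helper17's relational form. -/
theorem h1pd_adj_incl (hD : h1pd_DictStatement) (hC : h1pd_CorStatement)
    (hA : h1pd_AdjmStatement) (hBr : h1pd_BridgeStatement)
    (N q : ℕ) [NeZero N] [NeZero q]
    (x : Additive (Gamma0 N) →+ ℤ) (hx : IsParabolicHom (Gamma0 N) x)
    (y : Additive (Gamma0 (N * q)) →+ ℤ) (hy : IsParabolicHom (Gamma0 (N * q)) y)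
    (z : Additive (Gamma0 N) →+ ℤ) (hz : h17lr_IsCor (h32_incl N q) y z) :
    h1pd_B (N * q) (h17lr_res (h32_incl N q) x) y = h1pd_B N x z := by
  classical
  letI : Fintype (SL(2, ℤ) ⧸ Gamma0 N) := Fintype.ofFinite _
  letI : Fintype (SL(2, ℤ) ⧸ Gamma0 (N * q)) := Fintype.ofFinite _
  have hz' : z = h1pd_cor (h32_Gamma0_mul_le N q) y := hBr.1 _ _ _ y z hz
  rw [hz']
  exact h1pd_adj hD hC hA (Gamma0 (N * q)) (Gamma0 N) (h32_Gamma0_mul_le N q)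
    (h1pd_neg_one_mem_Gamma0 (N * q)) x hx y hy

/-- adjointness along conjugation by `diag(q, 1)`, in helper17's relational form. -/
theorem h1pd_adj_up (hD : h1pd_DictStatement) (hC : h1pd_CorStatement)
    (hA : h1pd_AdjmStatement) (hBr : h1pd_BridgeStatement) (hI : h1pd_IsoStatement)
    (N q : ℕ) [NeZero N] [NeZero q]
    (x : Additive (Gamma0 N) →+ ℤ) (hx : IsParabolicHom (Gamma0 N) x)
    (y : Additive (Gamma0 (N * q)) →+ ℤ) (hy : IsParabolicHom (Gamma0 (N * q)) y)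
    (z : Additive (Gamma0 N) →+ ℤ) (hz : h17lr_IsCor (h32_up N q) y z) :
    h1pd_B (N * q) (h17lr_res (h32_up N q) x) y = h1pd_B N x z := by
  classical
  letI : Fintype (SL(2, ℤ) ⧸ Gamma0 N) := Fintype.ofFinite _
  letI : Fintype (SL(2, ℤ) ⧸ Gamma0 (N * q)) := Fintype.ofFinite _
  letI : Fintype (SL(2, ℤ) ⧸ h1pd_Gup N q) := Fintype.ofFinite _
  set E := h1pd_upEquiv N q with hE
  set ψ' : Additive (h1pd_Gup N q) →+ ℤ :=
    y.comp (MonoidHom.toAdditive E.symm.toMonoidHom) with hψ'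
  set φ' : Additive (h1pd_Gup N q) →+ ℤ := h1pd_res (h1pd_Gup_le N q) x with hφ'
  have hz' : z = h1pd_cor (h1pd_Gup_le N q) ψ' := hBr.2 N q y z hz
  have hq : 0 < q := Nat.pos_of_ne_zero (NeZero.ne q)
  have hconj := h1pd_upEquiv_isConjDiag N q
  -- traces are preserved
  have htr : ∀ γ : Gamma0 (N * q),
      (((E γ : h1pd_Gup N q) : SL(2, ℤ)) : Matrix (Fin 2) (Fin 2) ℤ).trace
        = ((γ : SL(2, ℤ)) : Matrix (Fin 2) (Fin 2) ℤ).trace := by
    intro γ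
    obtain ⟨h00, -, -, h11⟩ := hconj γ
    rw [Matrix.trace_fin_two, Matrix.trace_fin_two]
    show ((E γ : h1pd_Gup N q) : SL(2, ℤ)) 0 0 + ((E γ : h1pd_Gup N q) : SL(2, ℤ)) 1 1
      = (γ : SL(2, ℤ)) 0 0 + (γ : SL(2, ℤ)) 1 1
    rw [h00, h11]
  have hφ'par : IsParabolicHom (h1pd_Gup N q) φ' := by
    intro γ hγ
    exact hx (Subgroup.inclusion (h1pd_Gup_le N q) γ) hγ
  have hψ'par : IsParabolicHom (h1pd_Gup N q) ψ' := by
    intro γ hγ
    show y (Additive.ofMul (E.symm γ)) = 0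
    apply hy
    have := htr (E.symm γ)
    rw [MulEquiv.apply_symm_apply] at this
    rw [← this]
    exact hγ
  -- the two pulled-back characters
  have e1 : ∀ γ : Gamma0 (N * q), φ' (Additive.ofMul (E γ))
      = h17lr_res (h32_up N q) x (Additive.ofMul γ) := fun γ => rfl
  have e2 : ∀ γ : Gamma0 (N * q), ψ' (Additive.ofMul (E γ)) = y (Additive.ofMul γ) := by
    intro γ
    show y (Additive.ofMul (E.symm (E γ))) = _
    rw [MulEquiv.symm_apply_apply]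
  -- invariance of the pairing
  obtain ⟨c', hc'⟩ := h1pd_exists_heis (h1pd_Gup N q) (h1pd_neg_one_mem_Gup N q) φ' ψ'
  have hc : h94lr_IsHeisHom (Gamma0 (N * q)) (AddMonoidHom.mul (R := ℤ))
      (h17lr_res (h32_up N q) x) y (fun γ => c' (E γ)) := by
    intro γ γ'
    have h1 := hc' (E γ) (E γ')
    rw [← map_mul, e1, e2] at h1
    exact h1
  have hiso := hI q hq (Gamma0 (N * q)) (h1pd_Gup N q) (h1pd_neg_one_mem_Gamma0 (N * q))
    (h1pd_neg_one_mem_Gup N q) E hconj φ' ψ' c' hφ'par hψ'par hc'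
  have hL : h1pd_B (N * q) (h17lr_res (h32_up N q) x) y = h1pd_cs (h1pd_Gup N q) φ' ψ' := by
    rw [h1pd_cs_eq (h1pd_Gup N q) (h1pd_neg_one_mem_Gup N q) hc', hiso]
    exact h1pd_cs_eq (Gamma0 (N * q)) (h1pd_neg_one_mem_Gamma0 (N * q)) hc
  rw [hL, hz']
  exact h1pd_adj hD hC hA (h1pd_Gup N q) (Gamma0 N) (h1pd_Gup_le N q)
    (h1pd_neg_one_mem_Gup N q) x hx ψ' hψ'par

end Gamma0

end Fermat.Agent.LR.PD
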