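import Fermat.Agent.LR.PD.Tele

/-!
# P-LR / PD, assembly part 1: intrinsic properties of the cusp-sum pairing `h1pd_cs`

For a subgroup `Γ ∋ -1` of finite index of `SL(2, ℤ)`:

* `h1pd_cs_eq`        : `h1pd_cs Γ φ ψ` is the cusp sum of ANY Heisenberg cochain of `(φ, ψ)`;
* `h1pd_cs_add_left`, `h1pd_cs_add_right` : biadditivity;
* `h1pd_cs_antisymm`  : `h1pd_cs Γ ψ φ = - h1pd_cs Γ φ ψ` if `φ` is parabolic;
* `h1pd_cs_model`     : the model formula (from `h1pd_tele`).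
-/

set_option autoImplicit false
set_option linter.unusedSectionVars false

open scoped MatrixGroups
open ModularGroup

namespace Fermat.Agent.LR.PD

open Fermat.Agent.S16.Coh Fermat.Agent.LR.PD94 ModularCurve.Period

section

variable (Γ : Subgroup SL(2, ℤ)) [Fintype (SL(2, ℤ) ⧸ Γ)]

/-- Heisenberg cochains exist. -/
theorem h1pd_exists_heis (hΓ : (-1 : SL(2, ℤ)) ∈ Γ) (φ ψ : Additive Γ →+ ℤ) :
    ∃ c : Γ → ℤ, h94lr_IsHeisHom Γ (AddMonoidHom.mul (R := ℤ)) φ ψ c :=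
  h94lr_exists_heis_hom_ring Γ hΓ (fun a h => by omega) (fun a h => by omega) φ ψ

/-- the pairing is the cusp sum of any Heisenberg cochain. -/
theorem h1pd_cs_eq (hΓ : (-1 : SL(2, ℤ)) ∈ Γ) {φ ψ : Additive Γ →+ ℤ} {c : Γ → ℤ}
    (hc : h94lr_IsHeisHom Γ (AddMonoidHom.mul (R := ℤ)) φ ψ c) :
    h1pd_cs Γ φ ψ = h94lr_cuspSum Γ c := by
  have h : ∃ c : Γ → ℤ, h94lr_IsHeisHom Γ (AddMonoidHom.mul (R := ℤ)) φ ψ c := ⟨c, hc⟩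
  rw [h1pd_cs, dif_pos h]
  exact h94lr_cuspSum_indep Γ (AddMonoidHom.mul (R := ℤ)) hΓ (fun a h => by omega)
    (fun a h => by omega) (Classical.choose_spec h) hc

theorem h1pd_cuspSum_add (c₁ c₂ : Γ → ℤ) :
    h94lr_cuspSum Γ (fun γ => c₁ γ + c₂ γ) = h94lr_cuspSum Γ c₁ + h94lr_cuspSum Γ c₂ := by
  unfold h94lr_cuspSum
  exact Finset.sum_add_distrib

theorem h1pd_cs_add_left (hΓ : (-1 : SL(2, ℤ)) ∈ Γ) (φ₁ φ₂ ψ : Additive Γ →+ ℤ) :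
    h1pd_cs Γ (φ₁ + φ₂) ψ = h1pd_cs Γ φ₁ ψ + h1pd_cs Γ φ₂ ψ := by
  obtain ⟨c₁, hc₁⟩ := h1pd_exists_heis Γ hΓ φ₁ ψ
  obtain ⟨c₂, hc₂⟩ := h1pd_exists_heis Γ hΓ φ₂ ψ
  have hc : h94lr_IsHeisHom Γ (AddMonoidHom.mul (R := ℤ)) (φ₁ + φ₂) ψ
      (fun γ => c₁ γ + c₂ γ) := by
    intro γ γ'
    have h1 := hc₁ γ γ'
    have h2 := hc₂ γ γ'
    simp only [AddMonoidHom.mul_apply, AddMonoidHom.add_apply] at h1 h2 ⊢
    rw [h1, h2]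
    ring
  rw [h1pd_cs_eq Γ hΓ hc, h1pd_cs_eq Γ hΓ hc₁, h1pd_cs_eq Γ hΓ hc₂, h1pd_cuspSum_add]

theorem h1pd_cs_add_right (hΓ : (-1 : SL(2, ℤ)) ∈ Γ) (φ ψ₁ ψ₂ : Additive Γ →+ ℤ) :
    h1pd_cs Γ φ (ψ₁ + ψ₂) = h1pd_cs Γ φ ψ₁ + h1pd_cs Γ φ ψ₂ := by
  obtain ⟨c₁, hc₁⟩ := h1pd_exists_heis Γ hΓ φ ψ₁
  obtain ⟨c₂, hc₂⟩ := h1pd_exists_heis Γ hΓ φ ψ₂
  have hc : h94lr_IsHeisHom Γ (AddMonoidHom.mul (R := ℤ)) φ (ψ₁ + ψ₂)
      (fun γ => c₁ γ + c₂ γ) := by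
    intro γ γ'
    have h1 := hc₁ γ γ'
    have h2 := hc₂ γ γ'
    simp only [AddMonoidHom.mul_apply, AddMonoidHom.add_apply] at h1 h2 ⊢
    rw [h1, h2]
    ring
  rw [h1pd_cs_eq Γ hΓ hc, h1pd_cs_eq Γ hΓ hc₁, h1pd_cs_eq Γ hΓ hc₂, h1pd_cuspSum_add]

/-- the trace of a cusp generator is `2`. -/
theorem h1pd_trace_cuspGen (ω : h94lr_Cusp Γ) :
    (((h94lr_cuspGen Γ ω : Γ) : SL(2, ℤ)) : Matrix (Fin 2) (Fin 2) ℤ).trace = 2 := by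
  show ((h94lr_cuspMat Γ ω : SL(2, ℤ)) : Matrix (Fin 2) (Fin 2) ℤ).trace = 2
  unfold h94lr_cuspMat
  set r : SL(2, ℤ) := Quotient.out (h94lr_cuspPt Γ ω)
  set n : ℕ := h94lr_cuspWidth Γ ω
  rw [Matrix.SpecialLinearGroup.coe_mul, Matrix.SpecialLinearGroup.coe_mul,
    Matrix.trace_mul_cycle, ← Matrix.SpecialLinearGroup.coe_mul, mul_inv_cancel,
    Matrix.SpecialLinearGroup.coe_one, Matrix.one_mul]
  have hT : (((T : SL(2, ℤ)) ^ n : SL(2, ℤ)) : Matrix (Fin 2) (Fin 2) ℤ) = !![1, (n : ℤ); 0, 1] := by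
    have := ModularGroup.coe_T_zpow (n : ℤ)
    rw [zpow_natCast] at this
    exact this
  rw [hT, Matrix.trace_fin_two_of]
  norm_num

/-- a parabolic character vanishes at the cusp generators. -/
theorem h1pd_parabolic_cuspGen {φ : Additive Γ →+ ℤ} (hφ : IsParabolicHom Γ φ)
    (ω : h94lr_Cusp Γ) : φ (Additive.ofMul (h94lr_cuspGen Γ ω)) = 0 := by
  apply hφ
  rw [h1pd_trace_cuspGen]
  norm_num

/-- **antisymmetry.** -/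
theorem h1pd_cs_antisymm (hΓ : (-1 : SL(2, ℤ)) ∈ Γ) {φ : Additive Γ →+ ℤ}
    (hφ : IsParabolicHom Γ φ) (ψ : Additive Γ →+ ℤ) :
    h1pd_cs Γ ψ φ = - h1pd_cs Γ φ ψ := by
  obtain ⟨c, hc⟩ := h1pd_exists_heis Γ hΓ φ ψ
  have hc' : h94lr_IsHeisHom Γ (AddMonoidHom.mul (R := ℤ)) ψ φ
      (fun γ => φ (Additive.ofMul γ) * ψ (Additive.ofMul γ) - c γ) := by
    intro γ γ'
    have h1 := hc γ γ'
    simp only [AddMonoidHom.mul_apply] at h1 ⊢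
    rw [h1]
    have e1 : φ (Additive.ofMul (γ * γ')) = φ (Additive.ofMul γ) + φ (Additive.ofMul γ') :=
      map_add φ (Additive.ofMul γ) (Additive.ofMul γ')
    have e2 : ψ (Additive.ofMul (γ * γ')) = ψ (Additive.ofMul γ) + ψ (Additive.ofMul γ') :=
      map_add ψ (Additive.ofMul γ) (Additive.ofMul γ')
    rw [e1, e2]
    ring
  rw [h1pd_cs_eq Γ hΓ hc, h1pd_cs_eq Γ hΓ hc']
  unfold h94lr_cuspSum
  rw [← Finset.sum_neg_distrib]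
  refine Finset.sum_congr rfl fun ω _ => ?_
  show φ (Additive.ofMul (h94lr_cuspGen Γ ω)) * ψ (Additive.ofMul (h94lr_cuspGen Γ ω))
    - c (h94lr_cuspGen Γ ω) = - c (h94lr_cuspGen Γ ω)
  rw [h1pd_parabolic_cuspGen Γ hφ ω]
  ring

/-- **the model formula.** -/
theorem h1pd_cs_model [DecidableEq (SL(2, ℤ) ⧸ Γ)] (hΓ : (-1 : SL(2, ℤ)) ∈ Γ)
    {v w v' w' : SL(2, ℤ) ⧸ Γ → ℤ} {φ ψ : Additive Γ →+ ℤ}
    (hv : h1pd_IsModelOf Γ v φ) (hv' : h1pd_IsModelOf Γ v' ψ)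
    (hw : IsWit (h1pd_permS Γ) (h1pd_permU Γ) v w)
    (hw' : IsWit (h1pd_permS Γ) (h1pd_permU Γ) v' w') :
    h1pd_cs Γ φ ψ = pdVal (h1pd_permU Γ) v' w := by
  obtain ⟨c, hc⟩ := h1pd_exists_heis Γ hΓ φ ψ
  rw [h1pd_cs_eq Γ hΓ hc]
  exact h1pd_tele Γ hΓ v w v' w' φ ψ c hv hv' hw hw' hc

end

end Fermat.Agent.LR.PD
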