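import Fermat.Agent.LR.PD.CorDefs

/-!
# P-LR / PD-GEN: generic linear algebra over `ℤ` (helper58)

`h58g_gen : h1pd_GenStatement`:
(1) functionals extend from a saturated submodule of a finite free `ℤ`-module
    (the quotient is finitely generated torsion-free, hence free, hence projective, so the
    quotient map has a section);
(2) a bilinear form on a finite free `ℤ`-module which represents every functional in the first
    slot is left-nondegenerate, also modulo every integer (Orzech).
-/

set_option autoImplicit false

namespace Fermat.Agent.LR.PD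

/-- functionals extend from a saturated submodule of a finitely generated `ℤ`-module. -/
theorem h58g_extend (H : Type) [AddCommGroup H] [Module.Finite ℤ H] (L : Submodule ℤ H)
    (hsat : ∀ (n : ℤ) (x : H), n ≠ 0 → n • x ∈ L → x ∈ L) (ξ : L →ₗ[ℤ] ℤ) :
    ∃ ξ' : H →ₗ[ℤ] ℤ, ∀ x : L, ξ' (x : H) = ξ x := by
  -- the quotient is torsion-free
  have htf : Module.IsTorsionFree ℤ (H ⧸ L) := by
    refine Module.IsTorsionFree.of_smul_eq_zero ?_
    intro r m hrm
    by_cases hr : r = 0
    · exact Or.inl hr
    · right
      obtain ⟨x, rfl⟩ := L.mkQ_surjective m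
      have h1 : L.mkQ (r • x) = 0 := by rw [map_smul]; exact hrm
      have h2 : r • x ∈ L := (Submodule.Quotient.mk_eq_zero L).1 h1
      have h3 : x ∈ L := hsat r x hr h2
      exact (Submodule.Quotient.mk_eq_zero L).2 h3
  have : Module.Free ℤ (H ⧸ L) := Module.free_of_finite_type_torsion_free'
  obtain ⟨s, hs⟩ := Module.projective_lifting_property L.mkQ
    (LinearMap.id : (H ⧸ L) →ₗ[ℤ] (H ⧸ L)) L.mkQ_surjective
  have hmem : ∀ x : H, x - s (L.mkQ x) ∈ L := by
    intro x
    have h1 : L.mkQ (x - s (L.mkQ x)) = 0 := by
      rw [map_sub]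
      have := LinearMap.congr_fun hs (L.mkQ x)
      simp only [LinearMap.comp_apply, LinearMap.id_apply] at this
      rw [this, sub_self]
    exact (Submodule.Quotient.mk_eq_zero L).1 h1
  let πL : H →ₗ[ℤ] L :=
    LinearMap.codRestrict L (LinearMap.id - s.comp L.mkQ) (fun x => by
      simpa using hmem x)
  refine ⟨ξ.comp πL, fun x => ?_⟩
  have hx : πL (x : H) = x := by
    apply Subtype.ext
    have h0 : L.mkQ (x : H) = 0 := by
      simp [Submodule.mkQ_apply, Submodule.Quotient.mk_eq_zero]
    simp [πL, h0]
  simp [hx]

/-- a bilinear form on a finite free `ℤ`-module representing every functional in the first slot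
is injective in the first slot. -/
theorem h58g_injective (X : Type) [AddCommGroup X] [Module.Finite ℤ X] [Module.Free ℤ X]
    (B : X →ₗ[ℤ] X →ₗ[ℤ] ℤ)
    (hB : ∀ ξ : X →ₗ[ℤ] ℤ, ∃ z : X, ∀ x, ξ x = B z x) :
    Function.Injective B := by
  have hsurj : Function.Surjective B := by
    intro ξ
    obtain ⟨z, hz⟩ := hB ξ
    exact ⟨z, LinearMap.ext fun x => (hz x).symm⟩
  let b := Module.Free.chooseBasis ℤ X
  let e : X ≃ₗ[ℤ] Module.Dual ℤ X := b.toDualEquiv
  have h1 : Function.Surjective (e.symm.toLinearMap.comp B) := by
    intro x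
    obtain ⟨z, hz⟩ := hsurj (e x)
    exact ⟨z, by simp [hz]⟩
  have h2 : Function.Injective (e.symm.toLinearMap.comp B) :=
    OrzechProperty.injective_of_surjective_endomorphism _ h1
  intro x y hxy
  apply h2
  simp [hxy]

theorem h58g_gen : h1pd_GenStatement := by
  refine ⟨?_, ?_⟩
  · intro H _ _ _ L hsat ξ
    exact h58g_extend H L hsat ξ
  · intro X _ _ _ B hB
    have hinj := h58g_injective X B hB
    refine ⟨?_, ?_⟩
    · intro z hz
      apply hinj
      rw [map_zero]
      exact LinearMap.ext fun x => by simpa using hz x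
    · intro p y₀ hdiv
      let b := Module.Free.chooseBasis ℤ X
      choose c hc using fun i => hdiv (b i)
      choose z hz using fun i => hB (b.coord i)
      refine ⟨∑ i, c i • z i, ?_⟩
      apply hinj
      apply b.ext
      intro j
      rw [map_smul, map_sum]
      simp only [LinearMap.smul_apply, LinearMap.sum_apply, map_smul]
      rw [hc j]
      have : ∀ i, B (z i) (b j) = if i = j then 1 else 0 := by
        intro i
        rw [← hz i]
        simp [Module.Basis.coord_apply, Finsupp.single_apply, eq_comm]
      simp [this]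

end Fermat.Agent.LR.PD
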