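import Fermat.Agent.LR.PD.AsmCs
import Fermat.Agent.LR.PD.Gen58

/-!
# P-LR / PD, assembly part 2: finiteness and representability (conditional on DICT)

* `h1pd_hom_finite`  : `Hom(Γ, ℤ)` is a finitely generated `ℤ`-module;
* `h1pd_rep`         : every functional on `parabolicHoms ℤ Γ ℤ` is `h1pd_cs Γ z ·` for a
  parabolic `z`.
-/

set_option autoImplicit false
set_option linter.unusedSectionVars false

open scoped MatrixGroups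
open ModularGroup

namespace Fermat.Agent.LR.PD

open Fermat.Agent.S16.Coh Fermat.Agent.LR.PD94 ModularCurve.Period

section

variable (Γ : Subgroup SL(2, ℤ)) [Fintype (SL(2, ℤ) ⧸ Γ)] [DecidableEq (SL(2, ℤ) ⧸ Γ)]

/-- the dictionary as an additive surjection `(X → ℤ) → Hom(Γ, ℤ)`. -/
theorem h1pd_exists_Phi (hD : h1pd_DictStatement) (hΓ : (-1 : SL(2, ℤ)) ∈ Γ) :
    ∃ Φ : (SL(2, ℤ) ⧸ Γ → ℤ) →+ (Additive Γ →+ ℤ),
      (∀ v, h1pd_IsModelOf Γ v (Φ v)) ∧ Function.Surjective Φ := by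
  obtain ⟨hex, huniq, hadd, hsurj, -, -⟩ := hD Γ hΓ
  choose Φ hΦ using hex
  have hΦadd : ∀ v v', Φ (v + v') = Φ v + Φ v' := fun v v' =>
    huniq _ _ _ (hΦ (v + v')) (hadd v v' _ _ (hΦ v) (hΦ v'))
  refine ⟨AddMonoidHom.mk' Φ hΦadd, hΦ, fun φ => ?_⟩
  obtain ⟨v, hv⟩ := hsurj φ
  exact ⟨v, huniq _ _ _ (hΦ v) hv⟩

/-- `Hom(Γ, ℤ)` is finitely generated. -/
theorem h1pd_hom_finite (hD : h1pd_DictStatement) (hΓ : (-1 : SL(2, ℤ)) ∈ Γ) :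
    Module.Finite ℤ (Additive Γ →+ ℤ) := by
  obtain ⟨Φ, -, hsurj⟩ := h1pd_exists_Phi Γ hD hΓ
  exact Module.Finite.of_surjective Φ.toIntLinearMap hsurj

/-- the parabolic characters form a saturated submodule. -/
theorem h1pd_parabolic_sat (n : ℤ) (x : Additive Γ →+ ℤ) (hn : n ≠ 0)
    (h : n • x ∈ parabolicHoms ℤ Γ ℤ) : x ∈ parabolicHoms ℤ Γ ℤ := by
  intro γ hγ
  have h1 := h γ hγ
  have h2 : n * x (Additive.ofMul γ) = 0 := by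
    simpa using h1
  rcases mul_eq_zero.1 h2 with h3 | h3
  · exact absurd h3 hn
  · exact h3

/-- **representability** (first slot). -/
theorem h1pd_rep (hD : h1pd_DictStatement) (hΓ : (-1 : SL(2, ℤ)) ∈ Γ)
    (ξ : parabolicHoms ℤ Γ ℤ →ₗ[ℤ] ℤ) :
    ∃ z : parabolicHoms ℤ Γ ℤ, ∀ x : parabolicHoms ℤ Γ ℤ,
      ξ x = h1pd_cs Γ (z : Additive Γ →+ ℤ) (x : Additive Γ →+ ℤ) := by
  have hneg := h94lr_neg_one_smul Γ hΓ
  have hs := h1pd_permS_mul_self Γ hneg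
  have hu := h1pd_permU_mul_self Γ hneg
  obtain ⟨Φ, hΦ, hsurj⟩ := h1pd_exists_Phi Γ hD hΓ
  obtain ⟨-, huniq, -, -, hbd, hpar⟩ := hD Γ hΓ
  haveI := h1pd_hom_finite Γ hD hΓ
  obtain ⟨ξ', hξ'⟩ := h58g_extend (Additive Γ →+ ℤ) (parabolicHoms ℤ Γ ℤ)
    (h1pd_parabolic_sat Γ) ξ
  -- the functional on vectors
  let Ξ : (SL(2, ℤ) ⧸ Γ → ℤ) →+ ℤ := ξ'.toAddMonoidHom.comp Φ
  have hΞ : ∀ v, IsBdV (h1pd_permS Γ) (h1pd_permU Γ) v → Ξ v = 0 := by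
    intro v hv
    have h0 : Φ v = 0 := huniq _ _ _ (hΦ v) (hbd v hv)
    show ξ' (Φ v) = 0
    rw [h0, map_zero]
  obtain ⟨v', w', hw', hval⟩ := h1pd_surj hs hu Ξ hΞ
  have hz : Φ v' ∈ parabolicHoms ℤ Γ ℤ := (hpar v' (Φ v') (hΦ v')).2 ⟨w', hw'⟩
  refine ⟨⟨Φ v', hz⟩, fun x => ?_⟩
  obtain ⟨v, hv⟩ := hsurj (x : Additive Γ →+ ℤ)
  have hxv : h1pd_IsModelOf Γ v (x : Additive Γ →+ ℤ) := hv ▸ hΦ v
  obtain ⟨w, hw⟩ := (hpar v _ hxv).1 x.2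
  rw [h1pd_cs_model Γ hΓ (hΦ v') hxv hw' hw, ← hval v, ← hξ' x]
  show ξ' (x : Additive Γ →+ ℤ) = ξ' (Φ v)
  rw [hv]

end

end Fermat.Agent.LR.PD
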