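import Fermat.Agent.LR.PD.Defs

/-!
# P-LR / PD: restriction, transfer and their models (frozen definitions + leaf statements)

For `Γ' ≤ Γ ≤ SL(2, ℤ)`:

* `h1pd_proj h : SL(2, ℤ) ⧸ Γ' → SL(2, ℤ) ⧸ Γ` the projection, `h1pd_push h` the push-forward
  (sum over the fibres) of functions, `v ∘ h1pd_proj h` the pull-back;
* `h1pd_res h φ` the restriction of a character of `Γ` to `Γ'`;
* `h1pd_cor h ψ` the transfer (corestriction) to `Γ` of a character of `Γ'`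
  (`MonoidHom.transfer` of Mathlib).

Leaf statements: `h1pd_CorStatement` (pull-back ↔ restriction, push-forward ↔ transfer),
`h1pd_GenStatement` (generic linear algebra over `ℤ`).
-/

set_option autoImplicit false

open scoped MatrixGroups
open ModularGroup

namespace Fermat.Agent.LR.PD

open Fermat.Agent.S16.Coh Fermat.Agent.LR.PD94 ModularCurve.Period

section Defs

variable {Γ' Γ : Subgroup SL(2, ℤ)}

/-- the projection `SL(2, ℤ) ⧸ Γ' → SL(2, ℤ) ⧸ Γ`. -/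
def h1pd_proj (h : Γ' ≤ Γ) : SL(2, ℤ) ⧸ Γ' → SL(2, ℤ) ⧸ Γ := Subgroup.quotientMapOfLE h

theorem h1pd_proj_mk (h : Γ' ≤ Γ) (g : SL(2, ℤ)) :
    h1pd_proj h (g : SL(2, ℤ) ⧸ Γ') = (g : SL(2, ℤ) ⧸ Γ) := rfl

/-- the push-forward of functions: sum over the fibres of the projection. -/
def h1pd_push (h : Γ' ≤ Γ) [Fintype (SL(2, ℤ) ⧸ Γ')] [DecidableEq (SL(2, ℤ) ⧸ Γ)]
    (v' : SL(2, ℤ) ⧸ Γ' → ℤ) : SL(2, ℤ) ⧸ Γ → ℤ :=
  fun x => ∑ x' ∈ Finset.univ.filter (fun x' => h1pd_proj h x' = x), v' x'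

/-- the restriction of a character of `Γ` to `Γ'`. -/
def h1pd_res (h : Γ' ≤ Γ) {A : Type*} [AddCommGroup A] (φ : Additive Γ →+ A) :
    Additive Γ' →+ A :=
  φ.comp (MonoidHom.toAdditive (Subgroup.inclusion h))

theorem h1pd_res_apply (h : Γ' ≤ Γ) {A : Type*} [AddCommGroup A] (φ : Additive Γ →+ A)
    (γ : Γ') : h1pd_res h φ (Additive.ofMul γ) = φ (Additive.ofMul (Subgroup.inclusion h γ)) :=
  rfl

/-- the transfer (corestriction) to `Γ` of a character of `Γ'`. -/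
noncomputable def h1pd_cor (h : Γ' ≤ Γ) [Γ'.FiniteIndex] {A : Type*} [AddCommGroup A]
    (ψ : Additive Γ' →+ A) : Additive Γ →+ A :=
  MonoidHom.toAdditiveLeft
    (MonoidHom.transfer (H := Γ'.subgroupOf Γ)
      ((AddMonoidHom.toMultiplicativeRight ψ).comp
        (Subgroup.subgroupOfEquivOfLe h).toMonoidHom))

end Defs

/-- **COR** (Shapiro dictionary for restriction and transfer): the pull-back of vectors models
the restriction of characters, the push-forward of vectors models the transfer. -/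
def h1pd_CorStatement : Prop :=
  ∀ (Γ' Γ : Subgroup SL(2, ℤ)) (h : Γ' ≤ Γ) [Γ'.FiniteIndex]
    [Fintype (SL(2, ℤ) ⧸ Γ')] [Fintype (SL(2, ℤ) ⧸ Γ)]
    [DecidableEq (SL(2, ℤ) ⧸ Γ')] [DecidableEq (SL(2, ℤ) ⧸ Γ)],
    (-1 : SL(2, ℤ)) ∈ Γ' →
    (∀ (v : SL(2, ℤ) ⧸ Γ → ℤ) (φ : Additive Γ →+ ℤ), h1pd_IsModelOf Γ v φ →
      h1pd_IsModelOf Γ' (fun x' => v (h1pd_proj h x')) (h1pd_res h φ)) ∧
    (∀ (v' : SL(2, ℤ) ⧸ Γ' → ℤ) (ψ : Additive Γ' →+ ℤ), h1pd_IsModelOf Γ' v' ψ →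
      h1pd_IsModelOf Γ (h1pd_push h v') (h1pd_cor h ψ))

/-- **GEN** (generic linear algebra over `ℤ`, Mathlib only):
(1) functionals extend from a saturated submodule of a finitely generated torsion-free module;
(2) a bilinear form on a finite free module which represents every functional in the first
slot is left-nondegenerate, also modulo every integer. -/
def h1pd_GenStatement : Prop :=
  (∀ (H : Type) [AddCommGroup H] [Module.Finite ℤ H] [Module.Free ℤ H] (L : Submodule ℤ H),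
    (∀ (n : ℤ) (x : H), n ≠ 0 → n • x ∈ L → x ∈ L) →
    ∀ ξ : L →ₗ[ℤ] ℤ, ∃ ξ' : H →ₗ[ℤ] ℤ, ∀ x : L, ξ' (x : H) = ξ x) ∧
  (∀ (X : Type) [AddCommGroup X] [Module.Finite ℤ X] [Module.Free ℤ X]
    (B : X →ₗ[ℤ] X →ₗ[ℤ] ℤ),
    (∀ ξ : X →ₗ[ℤ] ℤ, ∃ z : X, ∀ x, ξ x = B z x) →
    (∀ z : X, (∀ x, B z x = 0) → z = 0) ∧
    (∀ (p : ℤ) (y₀ : X), (∀ y, p ∣ B y₀ y) → ∃ y₁, y₀ = p • y₁))

end Fermat.Agent.LR.PD
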