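import Fermat.Agent.LR.PD.Model
import Fermat.Agent.LR.PD94.Surface
import Fermat.Prelude.Def_ModularCurve_PeriodMap

/-!
# P-LR / PD: frozen definitions and leaf statements of the Poincaré-duality sub-DAG

`Γ` is a subgroup of finite index of `SL(2, ℤ)` containing `-1`, `X = SL(2, ℤ) ⧸ Γ` with the
left action, functions on `X` carry the action `(g · F) y = F (g⁻¹ y)`.

* `h1pd_permS Γ`, `h1pd_permU Γ` : the permutations `y ↦ S⁻¹ y`, `y ↦ (S T)⁻¹ y` of `X`; in the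
  notation of `LR/PD/Model.lean`, `pull (h1pd_permS Γ)` is the action of `S` on functions,
  `pull (h1pd_permU Γ)` the action of `U = S T`, and `pull s ∘ pull u` the action of `T`.
* `h1pd_IsModelOf Γ v φ` : the character `φ` of `Γ` is attached to the vector `v : X → ℤ`
  (through the cocycle `κ` with `κ S = (S - 1) v`, `κ (S T) = 0`).
* `h1pd_cs Γ φ ψ` : **the pairing** = the cusp sum of a Heisenberg cochain of `(φ, ψ)`.

Leaf statements (each is proved in its own file by its owner):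
`h1pd_TeleStatement`, `h1pd_DictStatement`, `h1pd_IsoStatement`.
-/

set_option autoImplicit false

open scoped MatrixGroups
open ModularGroup

namespace Fermat.Agent.LR.PD

open Fermat.Agent.S16.Coh Fermat.Agent.LR.PD94 ModularCurve.Period

section Defs

variable (Γ : Subgroup SL(2, ℤ))

/-- the permutation `y ↦ S⁻¹ y` of `SL(2, ℤ) ⧸ Γ`. -/
noncomputable def h1pd_permS : Equiv.Perm (SL(2, ℤ) ⧸ Γ) := MulAction.toPerm ((S : SL(2, ℤ))⁻¹)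

/-- the permutation `y ↦ (S T)⁻¹ y` of `SL(2, ℤ) ⧸ Γ`. -/
noncomputable def h1pd_permU : Equiv.Perm (SL(2, ℤ) ⧸ Γ) :=
  MulAction.toPerm (((S : SL(2, ℤ)) * T)⁻¹)

theorem h1pd_permS_apply (x : SL(2, ℤ) ⧸ Γ) : h1pd_permS Γ x = (S : SL(2, ℤ))⁻¹ • x := rfl

theorem h1pd_permU_apply (x : SL(2, ℤ) ⧸ Γ) :
    h1pd_permU Γ x = ((S : SL(2, ℤ)) * T)⁻¹ • x := rfl

/-- the character `φ` of `Γ` is attached to the vector `v`: there is a cocycle `κ` on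
`SL(2, ℤ)` with values in the functions on `X`, with `κ S = (S - 1) v`, `κ (S T) = 0`, whose
restriction to `Γ`, evaluated at the base point, is `φ`. -/
def h1pd_IsModelOf (v : SL(2, ℤ) ⧸ Γ → ℤ) (φ : Additive Γ →+ ℤ) : Prop :=
  ∃ κ : SL(2, ℤ) → (SL(2, ℤ) ⧸ Γ) → ℤ, h94_IsCocycle κ ∧
    κ S = pull (h1pd_permS Γ) v - v ∧ κ (S * T) = 0 ∧
    ∀ γ : Γ, κ (γ : SL(2, ℤ)) (h94lr_x0 Γ) = φ (Additive.ofMul γ)

open Classical in
/-- **the pairing**: the cusp sum of a Heisenberg cochain of `(φ, ψ)`. -/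
noncomputable def h1pd_cs [Fintype (SL(2, ℤ) ⧸ Γ)] (φ ψ : Additive Γ →+ ℤ) : ℤ :=
  if h : ∃ c : Γ → ℤ, h94lr_IsHeisHom Γ (AddMonoidHom.mul (R := ℤ)) φ ψ c then
    h94lr_cuspSum Γ (Classical.choose h) else 0

end Defs

/-! ### the leaf statements -/

/-- **TELE** (telescoping; owner helper1): the cusp sum of a Heisenberg cochain of `(φ, ψ)` is
the model pairing of `v' ~ ψ` with the witness `w` of `v ~ φ`. -/
def h1pd_TeleStatement : Prop :=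
  ∀ (Γ : Subgroup SL(2, ℤ)) [Fintype (SL(2, ℤ) ⧸ Γ)] [DecidableEq (SL(2, ℤ) ⧸ Γ)],
    (-1 : SL(2, ℤ)) ∈ Γ →
    ∀ (v w v' w' : SL(2, ℤ) ⧸ Γ → ℤ) (φ ψ : Additive Γ →+ ℤ) (c : Γ → ℤ),
      h1pd_IsModelOf Γ v φ → h1pd_IsModelOf Γ v' ψ →
      IsWit (h1pd_permS Γ) (h1pd_permU Γ) v w → IsWit (h1pd_permS Γ) (h1pd_permU Γ) v' w' →
      h94lr_IsHeisHom Γ (AddMonoidHom.mul (R := ℤ)) φ ψ c →
      h94lr_cuspSum Γ c = pdVal (h1pd_permU Γ) v' w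

/-- **DICT** (the Shapiro dictionary `V / (V^S + V^U) ≅ Hom(Γ, ℤ)`):
existence, uniqueness and additivity of the character of a vector, surjectivity, vanishing on
coboundaries, and `parabolic ⇔ has a witness`. -/
def h1pd_DictStatement : Prop :=
  ∀ (Γ : Subgroup SL(2, ℤ)) [Fintype (SL(2, ℤ) ⧸ Γ)] [DecidableEq (SL(2, ℤ) ⧸ Γ)],
    (-1 : SL(2, ℤ)) ∈ Γ →
    (∀ v, ∃ φ, h1pd_IsModelOf Γ v φ) ∧
    (∀ v φ φ', h1pd_IsModelOf Γ v φ → h1pd_IsModelOf Γ v φ' → φ = φ') ∧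
    (∀ v v' φ φ', h1pd_IsModelOf Γ v φ → h1pd_IsModelOf Γ v' φ' →
      h1pd_IsModelOf Γ (v + v') (φ + φ')) ∧
    (∀ φ, ∃ v, h1pd_IsModelOf Γ v φ) ∧
    (∀ v, IsBdV (h1pd_permS Γ) (h1pd_permU Γ) v → h1pd_IsModelOf Γ v 0) ∧
    (∀ v φ, h1pd_IsModelOf Γ v φ →
      (IsParabolicHom Γ φ ↔ IsParV (h1pd_permS Γ) (h1pd_permU Γ) v))

/-- the matrix of `E γ` is the conjugate of the matrix of `γ` by `diag(q, 1)`:
`[[a, b], [c, d]] ↦ [[a, q b], [c / q, d]]`. -/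
def h1pd_IsConjDiag (q : ℕ) {Γ Γ' : Subgroup SL(2, ℤ)} (E : Γ ≃* Γ') : Prop :=
  ∀ γ : Γ, ((E γ : Γ') : SL(2, ℤ)) 0 0 = (γ : SL(2, ℤ)) 0 0 ∧
    ((E γ : Γ') : SL(2, ℤ)) 0 1 = (q : ℤ) * (γ : SL(2, ℤ)) 0 1 ∧
    (q : ℤ) * ((E γ : Γ') : SL(2, ℤ)) 1 0 = (γ : SL(2, ℤ)) 1 0 ∧
    ((E γ : Γ') : SL(2, ℤ)) 1 1 = (γ : SL(2, ℤ)) 1 1

/-- **ISO** (owner helper94): the cusp sum of a Heisenberg cochain of a pair of parabolic
characters is invariant under conjugation by `diag(q, 1)`. -/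
def h1pd_IsoStatement : Prop :=
  ∀ (q : ℕ), 0 < q → ∀ (Γ Γ' : Subgroup SL(2, ℤ))
    [Fintype (SL(2, ℤ) ⧸ Γ)] [Fintype (SL(2, ℤ) ⧸ Γ')],
    (-1 : SL(2, ℤ)) ∈ Γ → (-1 : SL(2, ℤ)) ∈ Γ' →
    ∀ (E : Γ ≃* Γ'), h1pd_IsConjDiag q E →
    ∀ (φ' ψ' : Additive Γ' →+ ℤ) (c' : Γ' → ℤ),
      IsParabolicHom Γ' φ' → IsParabolicHom Γ' ψ' →
      h94lr_IsHeisHom Γ' (AddMonoidHom.mul (R := ℤ)) φ' ψ' c' →
      h94lr_cuspSum Γ' c' = h94lr_cuspSum Γ (fun γ => c' (E γ))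

end Fermat.Agent.LR.PD
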