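import Fermat.Agent.LR.PD.Final
import Fermat.Agent.LR.PD.Bridge27
import Fermat.Agent.LR.CohReps
import Fermat.Agent.LR.AsmDefs

/-!
# P-LR / PD (row LR-PD): Poincaré duality on `L_M = Hom_par(Γ₀(M), ℤ)`, unconditional

`h1pd_BM M : L_M →ₗ[ℤ] L_M →ₗ[ℤ] ℤ` for every `M : ℕ` (zero for `M = 0`, the cusp-sum pairing
`h1pd_form M` for `M > 0`).

* `h1pd_pd : h88_PdStatement`  (the frozen statement of row LR-PD), witnessed by `h1pd_BM`;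
* `h1pd_BM_rep`       : every functional on `L_M` is `h1pd_BM M z ·`;
* `h1pd_BM_nondeg`    : left nondegeneracy, also modulo every integer;
* `h1pd_BM_antisymm`  : antisymmetry;
* `h1pd_BM_adj`       : `res_i` is left adjoint to `cor_i` (`i = 1, 2`);
* `h1pd_BM_adj'`      : the same in the other slot;
* `h1pd_BM_T`         : `T_ℓ` is self-adjoint (`ℓ ∤ N` prime).
-/

set_option autoImplicit false

open scoped MatrixGroups
open ModularGroup CongruenceSubgroup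

namespace Fermat.Agent.LR.PD

open Fermat.Agent.LR

open Classical in
/-- **the Poincaré duality pairing** on `L_M`, for every `M : ℕ`. -/
noncomputable def h1pd_BM (M : ℕ) : h17lr_L M →ₗ[ℤ] h17lr_L M →ₗ[ℤ] ℤ :=
  if h : M = 0 then 0 else @h1pd_form M ⟨h⟩

theorem h1pd_BM_eq (M : ℕ) [hM : NeZero M] : h1pd_BM M = h1pd_form M := by
  unfold h1pd_BM
  rw [dif_neg (NeZero.ne M)]

/-- every functional on `L_M` is `h1pd_BM M z ·`. -/
theorem h1pd_BM_rep (M : ℕ) (hM : 0 < M) (ξ : h17lr_L M →ₗ[ℤ] ℤ) :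
    ∃ z : h17lr_L M, ∀ x, ξ x = h1pd_BM M z x := by
  haveI : NeZero M := ⟨Nat.pos_iff_ne_zero.mp hM⟩
  rw [h1pd_BM_eq]
  exact h1pd_perfect_rep M ξ

/-- left nondegeneracy. -/
theorem h1pd_BM_nondeg_zero (M : ℕ) (hM : 0 < M) (z : h17lr_L M)
    (hz : ∀ x, h1pd_BM M z x = 0) : z = 0 := by
  haveI : NeZero M := ⟨Nat.pos_iff_ne_zero.mp hM⟩
  rw [h1pd_BM_eq] at hz
  exact (h1pd_perfect_nondeg M).1 z hz

/-- left nondegeneracy modulo every integer. -/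
theorem h1pd_BM_nondeg (M : ℕ) (hM : 0 < M) (p : ℤ) (y₀ : h17lr_L M)
    (h : ∀ y, p ∣ h1pd_BM M y₀ y) : ∃ y₁, y₀ = p • y₁ := by
  haveI : NeZero M := ⟨Nat.pos_iff_ne_zero.mp hM⟩
  rw [h1pd_BM_eq] at h
  exact (h1pd_perfect_nondeg M).2 p y₀ h

/-- antisymmetry. -/
theorem h1pd_BM_antisymm (M : ℕ) (x y : h17lr_L M) : h1pd_BM M x y = - h1pd_BM M y x := by
  by_cases hM : M = 0
  · unfold h1pd_BM
    rw [dif_pos hM]
    simp
  · haveI : NeZero M := ⟨hM⟩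
    rw [h1pd_BM_eq]
    exact h1pd_form_antisymm M x y

/-- `res_i` is left adjoint to `cor_i`. -/
theorem h1pd_BM_adj (N q : ℕ) [NeZero q] (hN : 0 < N) (hq : q.Prime) (hqN : ¬ q ∣ N)
    (x : h17lr_L N) (y : h17lr_L (N * q)) :
    h1pd_BM (N * q) (h17lr_res1 N q x) y = h1pd_BM N x (h17lr_cor1 N q y) ∧
    h1pd_BM (N * q) (h17lr_res2 N q x) y = h1pd_BM N x (h17lr_cor2 N q y) := by
  haveI : NeZero N := ⟨Nat.pos_iff_ne_zero.mp hN⟩
  rw [h1pd_BM_eq, h1pd_BM_eq]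
  exact ⟨h1pd_adj1 h27b_bridge h17lr_cor1_spec N q hq hqN x y,
    h1pd_adj2 h27b_bridge h17lr_cor2_spec N q hq hqN x y⟩

/-- `cor_i` is left adjoint to `res_i`. -/
theorem h1pd_BM_adj' (N q : ℕ) [NeZero q] (hN : 0 < N) (hq : q.Prime) (hqN : ¬ q ∣ N)
    (x : h17lr_L N) (y : h17lr_L (N * q)) :
    h1pd_BM N (h17lr_cor1 N q y) x = h1pd_BM (N * q) y (h17lr_res1 N q x) ∧
    h1pd_BM N (h17lr_cor2 N q y) x = h1pd_BM (N * q) y (h17lr_res2 N q x) := by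
  obtain ⟨h1, h2⟩ := h1pd_BM_adj N q hN hq hqN x y
  constructor
  · rw [h1pd_BM_antisymm N, ← h1, h1pd_BM_antisymm (N * q) y]
  · rw [h1pd_BM_antisymm N, ← h2, h1pd_BM_antisymm (N * q) y]

/-- **`T_ℓ` is self-adjoint.** -/
theorem h1pd_BM_T (N ℓ : ℕ) (hN : 0 < N) (hℓ : ℓ.Prime) (hℓN : ¬ ℓ ∣ N) (x z : h17lr_L N) :
    h1pd_BM N (h17lr_T N ℓ x) z = h1pd_BM N x (h17lr_T N ℓ z) := by
  haveI : NeZero N := ⟨Nat.pos_iff_ne_zero.mp hN⟩
  haveI : NeZero ℓ := ⟨hℓ.ne_zero⟩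
  rw [h1pd_BM_eq]
  exact h1pd_T_selfadjoint h27b_bridge h17lr_cor1_spec h17lr_cor2_spec h17lr_corRes N ℓ hℓ hℓN x z

/-- **row LR-PD.** -/
theorem h1pd_pd : h88_PdStatement :=
  ⟨h1pd_BM, fun M hM ξ => h1pd_BM_rep M hM ξ,
    fun N q _ hN hq hqN x y => h1pd_BM_adj N q hN hq hqN x y⟩

end Fermat.Agent.LR.PD
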