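import Fermat.Agent.LR.PD.Perm

/-!
# P-LR / PD: the coset model of Poincaré duality (Mathlib only)

`X` a finite set with permutations `s`, `u` (`s² = 1`, `u³ = 1`), `V = X → ℤ`,
`S = pull s`, `U = pull u`, `T = S ∘ U`.

* `IsWit s u v w`  : `(S - 1) v = (T - 1) w`   (`w` witnesses that `v` is parabolic);
* `IsParV s u v`   : `∃ w, IsWit s u v w`;
* `IsBdV s u v`    : `v ∈ V^S + V^U`  (coboundaries);
* the pairing of `v` with a parabolic `v'` with witness `w'` is `dot v ((U - 1) w')`.

Main results: `h1pd_wit_indep` (independence of the witness), `h1pd_bd_left`, `h1pd_bd_right`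
(coboundaries are in the radical), `h1pd_surj` (every functional on `V` killing `V^S + V^U` is
the pairing with a parabolic vector), `h1pd_parV_sat`, `h1pd_bdV_sat` (saturation).
-/

set_option autoImplicit false
set_option linter.unusedSectionVars false

namespace Fermat.Agent.LR.PD

variable {X : Type*} [Fintype X] [DecidableEq X] (s u : Equiv.Perm X)

/-- `(S - 1) v = (T - 1) w`. -/
def IsWit (v w : X → ℤ) : Prop := pull s v - v = pull s (pull u w) - w

/-- parabolic vectors. -/
def IsParV (v : X → ℤ) : Prop := ∃ w : X → ℤ, IsWit s u v w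

/-- coboundary vectors: `V^S + V^U`. -/
def IsBdV (v : X → ℤ) : Prop := ∃ a b : X → ℤ, v = a + b ∧ pull s a = a ∧ pull u b = b

/-- the value of the pairing of `v` with a parabolic vector with witness `w'`. -/
def pdVal (v w' : X → ℤ) : ℤ := dot v (pull u w' - w')

variable {s u}

lemma IsWit.add {v w v' w' : X → ℤ} (h : IsWit s u v w) (h' : IsWit s u v' w') :
    IsWit s u (v + v') (w + w') := by
  unfold IsWit at *
  simp only [pull_add]
  rw [add_sub_add_comm, h, h', add_sub_add_comm]

lemma IsWit.neg {v w : X → ℤ} (h : IsWit s u v w) : IsWit s u (-v) (-w) := by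
  unfold IsWit at *
  simp only [pull_neg]
  rw [← neg_sub', h, neg_sub']

lemma IsWit.smul {v w : X → ℤ} (n : ℤ) (h : IsWit s u v w) : IsWit s u (n • v) (n • w) := by
  unfold IsWit at *
  simp only [pull_smul]
  rw [← smul_sub, h, smul_sub]

lemma IsWit.zero : IsWit s u (0 : X → ℤ) 0 := by
  unfold IsWit; simp [pull_zero]

lemma pdVal_add_left (v₁ v₂ w' : X → ℤ) : pdVal u (v₁ + v₂) w' = pdVal u v₁ w' + pdVal u v₂ w' :=
  dot_add_left _ _ _

lemma pdVal_add_right (v w₁ w₂ : X → ℤ) : pdVal u v (w₁ + w₂) = pdVal u v w₁ + pdVal u v w₂ := by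
  unfold pdVal
  rw [pull_add, add_sub_add_comm, dot_add_right]

lemma pdVal_smul_left (n : ℤ) (v w' : X → ℤ) : pdVal u (n • v) w' = n * pdVal u v w' :=
  dot_smul_left _ _ _

lemma pdVal_smul_right (n : ℤ) (v w' : X → ℤ) : pdVal u v (n • w') = n * pdVal u v w' := by
  unfold pdVal
  rw [pull_smul, ← smul_sub, dot_smul_right]

section invol

variable (hs : s * s = 1) (hu : u * u * u = 1)
include hs

lemma pull_s_pull_s (v : X → ℤ) : pull s (pull s v) = v := by
  rw [← pull_mul, hs, pull_one]

lemma s_inv : s⁻¹ = s := by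
  rw [inv_eq_iff_mul_eq_one]; exact hs

/-- `T d = d ⇒ U d = S d`. -/
lemma pull_u_of_fix {d : X → ℤ} (hd : pull s (pull u d) = d) : pull u d = pull s d := by
  have := congrArg (pull s) hd
  rwa [pull_s_pull_s hs] at this

/-- for parabolic `v` and `T d = d`: `dot v ((U - 1) d) = 0`. -/
lemma dot_par_fix {v w d : X → ℤ} (hv : IsWit s u v w) (hd : pull s (pull u d) = d) :
    dot v (pull u d - d) = 0 := by
  rw [pull_u_of_fix hs hd]
  -- dot v (S d - d) = dot (S v - v) d
  have h1 : dot v (pull s d - d) = dot (pull s v - v) d := by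
    rw [dot_sub_right, dot_sub_left, dot_pull_right, s_inv hs]
  rw [h1, hv, dot_sub_left]
  have h2 : dot (pull s (pull u w)) d = dot (pull s (pull u w)) (pull s (pull u d)) := by rw [hd]
  rw [h2, dot_pull_pull, dot_pull_pull, sub_self]

/-- **independence of the witness.** -/
theorem h1pd_wit_indep {v w v' w₁ w₂ : X → ℤ} (hv : IsWit s u v w)
    (h₁ : IsWit s u v' w₁) (h₂ : IsWit s u v' w₂) : pdVal u v w₁ = pdVal u v w₂ := by
  have hd : pull s (pull u (w₁ - w₂)) = w₁ - w₂ := by
    unfold IsWit at h₁ h₂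
    have : pull s (pull u w₁) - w₁ = pull s (pull u w₂) - w₂ := by rw [← h₁, ← h₂]
    rw [pull_sub, pull_sub]
    have h3 : pull s (pull u w₁) - pull s (pull u w₂) = w₁ - w₂ := by
      have h4 : pull s (pull u w₁) - pull s (pull u w₂)
          = (pull s (pull u w₁) - w₁) - (pull s (pull u w₂) - w₂) + (w₁ - w₂) := by abel
      rw [h4, this, sub_self, zero_add]
    exact h3
  have := dot_par_fix hs hv hd
  unfold pdVal
  have e : pull u w₁ - w₁ = (pull u (w₁ - w₂) - (w₁ - w₂)) + (pull u w₂ - w₂) := by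
    rw [pull_sub]; abel
  rw [e, dot_add_right, this, zero_add]

/-- coboundaries are parabolic. -/
lemma IsBdV.isWit {v a b : X → ℤ} (hv : v = a + b) (ha : pull s a = a) (hb : pull u b = b) :
    IsWit s u v b := by
  unfold IsWit
  rw [hv, pull_add, ha, hb]
  abel

lemma IsBdV.isParV {v : X → ℤ} (h : IsBdV s u v) : IsParV s u v := by
  obtain ⟨a, b, hv, ha, hb⟩ := h
  exact ⟨b, IsBdV.isWit hs hv ha hb⟩

/-- coboundaries pair to zero on the right (with the canonical witness). -/
theorem h1pd_bd_right {v' a b : X → ℤ} (_hv : v' = a + b) (_ha : pull s a = a)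
    (hb : pull u b = b) (v : X → ℤ) : pdVal u v b = 0 := by
  unfold pdVal
  rw [hb, sub_self, dot_zero_right]

/-- `(U - 1) w' = (S - 1)(v' - U w')` for a witness. -/
lemma wit_alt {v' w' : X → ℤ} (h : IsWit s u v' w') :
    pull u w' - w' = pull s (v' - pull u w') - (v' - pull u w') := by
  unfold IsWit at h
  rw [pull_sub]
  have : pull s v' - pull s (pull u w') - (v' - pull u w')
      = (pull s v' - v') - (pull s (pull u w') - w') + (pull u w' - w') := by abel
  rw [this, h, sub_self, zero_add]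

include hu

lemma u_inv : u⁻¹ = u * u := by
  rw [inv_eq_iff_mul_eq_one, ← mul_assoc]; exact hu

/-- coboundaries pair to zero on the left. -/
theorem h1pd_bd_left {v a b : X → ℤ} (hv : v = a + b) (ha : pull s a = a) (hb : pull u b = b)
    {v' w' : X → ℤ} (h : IsWit s u v' w') : pdVal u v w' = 0 := by
  unfold pdVal
  rw [hv, dot_add_left]
  have h1 : dot b (pull u w' - w') = 0 := dot_eq_zero_of_inv u b w' hb
  have h2 : dot a (pull u w' - w') = 0 := by
    rw [wit_alt hs h]
    exact dot_eq_zero_of_inv s a _ ha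
  rw [h1, h2, add_zero]

/-- **surjectivity**: a vector `z` orthogonal to `V^S` and `V^U` is `(U - 1) w'` for a witness
`w'` of a parabolic vector `v'`. -/
theorem h1pd_surj_vec (z : X → ℤ) (hzs : ∀ a, pull s a = a → dot a z = 0)
    (hzu : ∀ b, pull u b = b → dot b z = 0) :
    ∃ v' w' : X → ℤ, IsWit s u v' w' ∧ pull u w' - w' = z := by
  obtain ⟨y₁, h₁⟩ := h1pd_perp s z hzs
  obtain ⟨y₂, h₂⟩ := h1pd_perp u z hzu
  refine ⟨y₁ + pull u y₂, y₂, ?_, h₂.symm⟩
  unfold IsWit
  rw [pull_add]
  have : pull s y₁ + pull s (pull u y₂) - (y₁ + pull u y₂)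
      = (pull s y₁ - y₁) - (pull u y₂ - y₂) + (pull s (pull u y₂) - y₂) := by abel
  rw [this, ← h₁, ← h₂, sub_self, zero_add]

/-- **surjectivity**: every additive functional on `V` which kills `V^S + V^U` is the pairing
with a parabolic vector. -/
theorem h1pd_surj (ξ : (X → ℤ) →+ ℤ) (hξ : ∀ v, IsBdV s u v → ξ v = 0) :
    ∃ v' w' : X → ℤ, IsWit s u v' w' ∧ ∀ v, ξ v = pdVal u v w' := by
  classical
  -- ξ = dot · z
  let z : X → ℤ := fun x => ξ (ind x)
  have hz : ∀ v, ξ v = dot v z := by
    intro v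
    have hv : v = ∑ x, v x • ind x := by
      funext y
      simp only [Finset.sum_apply, Pi.smul_apply, ind, smul_eq_mul, mul_ite, mul_one, mul_zero]
      rw [Finset.sum_ite_eq]
      simp
    conv_lhs => rw [hv]
    rw [map_sum]
    unfold dot
    refine Finset.sum_congr rfl fun x _ => ?_
    rw [map_zsmul, smul_eq_mul]
  have hzs : ∀ a, pull s a = a → dot a z = 0 := by
    intro a ha
    rw [← hz]
    exact hξ a ⟨a, 0, by simp, ha, pull_zero u⟩
  have hzu : ∀ b, pull u b = b → dot b z = 0 := by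
    intro b hb
    rw [← hz]
    exact hξ b ⟨0, b, by simp, pull_zero s, hb⟩
  obtain ⟨v', w', hw, hwz⟩ := h1pd_surj_vec hs hu z hzs hzu
  refine ⟨v', w', hw, fun v => ?_⟩
  rw [hz v]
  unfold pdVal
  rw [hwz]

omit hu in
/-- **saturation of the parabolic vectors.** -/
theorem h1pd_parV_sat (n : ℤ) (hn : n ≠ 0) (v : X → ℤ) (h : IsParV s u (n • v)) :
    IsParV s u v := by
  obtain ⟨w, hw⟩ := h
  unfold IsWit at hw
  -- (S - 1) v ⟂ V^T
  have hperp : ∀ a, pull (u * s) a = a → dot a (pull s v - v) = 0 := by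
    intro a ha
    have h1 : dot a (pull s (n • v) - n • v) = 0 := by
      rw [hw]
      have : pull s (pull u w) = pull (u * s) w := (pull_mul u s w).symm
      rw [this]
      exact dot_eq_zero_of_inv (u * s) a w ha
    rw [pull_smul, ← smul_sub, dot_smul_right] at h1
    rcases mul_eq_zero.1 h1 with h | h
    · exact absurd h hn
    · exact h
  obtain ⟨y, hy⟩ := h1pd_perp (u * s) (pull s v - v) hperp
  exact ⟨y, by unfold IsWit; rw [hy, pull_mul]⟩

end invol

/-- **saturation of the coboundaries** (for a transitive action). -/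
theorem h1pd_bdV_sat
    (htr : ∀ P : X → Prop, (∀ x, P x → P (s x)) → (∀ x, P x → P (u x)) → ∀ x y, P x → P y)
    (n : ℤ) (hn : n ≠ 0) (v : X → ℤ) (h : IsBdV s u (n • v)) : IsBdV s u v := by
  classical
  obtain ⟨a, b, hv, ha, hb⟩ := h
  have hva : ∀ x, n * v x = a x + b x := fun x => by
    have := congrFun hv x
    simpa using this
  have has : ∀ x, a (s x) = a x := fun x => congrFun ha x
  have hbu : ∀ x, b (u x) = b x := fun x => congrFun hb x
  rcases isEmpty_or_nonempty X with hX | ⟨⟨x₀⟩⟩
  · exact ⟨0, 0, by funext x; exact (hX.false x).elim, by funext x; exact (hX.false x).elim,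
      by funext x; exact (hX.false x).elim⟩
  -- a ≡ a x₀ mod n everywhere
  have hcong : ∀ y, n ∣ a y - a x₀ := by
    intro y
    refine htr (fun y => n ∣ a y - a x₀) ?_ ?_ x₀ y (by simp)
    · intro x hx
      show n ∣ a (s x) - a x₀
      rw [has x]; exact hx
    · intro x hx
      show n ∣ a (u x) - a x₀
      have e : a (u x) - a x₀ = n * (v (u x) - v x) + (a x - a x₀) := by
        have h1 := hva (u x)
        have h2 := hva x
        have h3 := hbu x
        linarith
      rw [e]
      exact dvd_add (dvd_mul_right _ _) hx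
  refine ⟨fun x => (a x - a x₀) / n, fun x => (b x + a x₀) / n, ?_, ?_, ?_⟩
  · funext x
    obtain ⟨c, hc⟩ := hcong x
    have hb' : b x + a x₀ = n * (v x - c) := by
      have := hva x
      linarith [mul_sub n (v x) c]
    show v x = (a x - a x₀) / n + (b x + a x₀) / n
    rw [hc, hb', Int.mul_ediv_cancel_left _ hn, Int.mul_ediv_cancel_left _ hn]
    ring
  · funext x
    show (a (s x) - a x₀) / n = (a x - a x₀) / n
    rw [has x]
  · funext x
    show (b (u x) + a x₀) / n = (b x + a x₀) / n
    rw [hbu x]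

end Fermat.Agent.LR.PD
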