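import Mathlib

/-!
# P-LR / PD (Poincaré duality for `Hom_par(Γ, ℤ)`): permutation modules

Mathlib only.  For a permutation `g` of a finite set `X`, acting on `V = X → ℤ` by pull-back:

* `h1pd_perp`     : `z ⟂ V^g  ⇒  z ∈ (g - 1) V`;
* `h1pd_sat`      : `(g - 1) V` is saturated;
* `h1pd_dot_*`    : calculus of the standard inner product.
-/

set_option autoImplicit false
set_option linter.unusedSectionVars false

namespace Fermat.Agent.LR.PD

variable {X : Type*} [Fintype X] [DecidableEq X]

/-- pull-back of a function along a permutation. -/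
def pull (g : Equiv.Perm X) (v : X → ℤ) : X → ℤ := fun x => v (g x)

/-- the standard inner product on `X → ℤ`. -/
def dot (v w : X → ℤ) : ℤ := ∑ x, v x * w x

omit [Fintype X] [DecidableEq X] in
@[simp] lemma pull_apply (g : Equiv.Perm X) (v : X → ℤ) (x : X) : pull g v x = v (g x) := rfl

omit [Fintype X] [DecidableEq X] in
lemma pull_one (v : X → ℤ) : pull 1 v = v := rfl

omit [Fintype X] [DecidableEq X] in
lemma pull_mul (g h : Equiv.Perm X) (v : X → ℤ) : pull (g * h) v = pull h (pull g v) := rfl

omit [Fintype X] [DecidableEq X] in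
lemma pull_add (g : Equiv.Perm X) (v w : X → ℤ) : pull g (v + w) = pull g v + pull g w := rfl

omit [Fintype X] [DecidableEq X] in
lemma pull_sub (g : Equiv.Perm X) (v w : X → ℤ) : pull g (v - w) = pull g v - pull g w := rfl

omit [Fintype X] [DecidableEq X] in
lemma pull_neg (g : Equiv.Perm X) (v : X → ℤ) : pull g (-v) = -pull g v := rfl

omit [Fintype X] [DecidableEq X] in
lemma pull_zero (g : Equiv.Perm X) : pull g (0 : X → ℤ) = 0 := rfl

omit [Fintype X] [DecidableEq X] in
lemma pull_smul (g : Equiv.Perm X) (n : ℤ) (v : X → ℤ) : pull g (n • v) = n • pull g v := rfl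

omit [Fintype X] [DecidableEq X] in
lemma pull_inv_pull (g : Equiv.Perm X) (v : X → ℤ) : pull g⁻¹ (pull g v) = v := by
  funext x; simp [pull]

omit [Fintype X] [DecidableEq X] in
lemma pull_pull_inv (g : Equiv.Perm X) (v : X → ℤ) : pull g (pull g⁻¹ v) = v := by
  funext x; simp [pull]

omit [DecidableEq X] in
lemma dot_comm (v w : X → ℤ) : dot v w = dot w v := by
  unfold dot; exact Finset.sum_congr rfl fun x _ => mul_comm _ _

omit [DecidableEq X] in
lemma dot_add_left (v v' w : X → ℤ) : dot (v + v') w = dot v w + dot v' w := by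
  unfold dot; rw [← Finset.sum_add_distrib]
  exact Finset.sum_congr rfl fun x _ => by simp [add_mul]

omit [DecidableEq X] in
lemma dot_add_right (v w w' : X → ℤ) : dot v (w + w') = dot v w + dot v w' := by
  unfold dot; rw [← Finset.sum_add_distrib]
  exact Finset.sum_congr rfl fun x _ => by simp [mul_add]

omit [DecidableEq X] in
lemma dot_neg_left (v w : X → ℤ) : dot (-v) w = -dot v w := by
  unfold dot; rw [← Finset.sum_neg_distrib]
  exact Finset.sum_congr rfl fun x _ => by simp

omit [DecidableEq X] in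
lemma dot_neg_right (v w : X → ℤ) : dot v (-w) = -dot v w := by
  unfold dot; rw [← Finset.sum_neg_distrib]
  exact Finset.sum_congr rfl fun x _ => by simp

omit [DecidableEq X] in
lemma dot_sub_left (v v' w : X → ℤ) : dot (v - v') w = dot v w - dot v' w := by
  rw [sub_eq_add_neg, dot_add_left, dot_neg_left, sub_eq_add_neg]

omit [DecidableEq X] in
lemma dot_sub_right (v w w' : X → ℤ) : dot v (w - w') = dot v w - dot v w' := by
  rw [sub_eq_add_neg, dot_add_right, dot_neg_right, sub_eq_add_neg]

omit [DecidableEq X] in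
lemma dot_smul_left (n : ℤ) (v w : X → ℤ) : dot (n • v) w = n * dot v w := by
  unfold dot; rw [Finset.mul_sum]
  exact Finset.sum_congr rfl fun x _ => by simp [mul_assoc]

omit [DecidableEq X] in
lemma dot_smul_right (n : ℤ) (v w : X → ℤ) : dot v (n • w) = n * dot v w := by
  rw [dot_comm, dot_smul_left, dot_comm]

omit [DecidableEq X] in
@[simp] lemma dot_zero_left (w : X → ℤ) : dot 0 w = 0 := by simp [dot]

omit [DecidableEq X] in
@[simp] lemma dot_zero_right (v : X → ℤ) : dot v 0 = 0 := by simp [dot]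

omit [DecidableEq X] in
lemma dot_pull_pull (g : Equiv.Perm X) (v w : X → ℤ) : dot (pull g v) (pull g w) = dot v w := by
  unfold dot pull
  exact Equiv.sum_comp g (fun x => v x * w x)

omit [DecidableEq X] in
lemma dot_pull_left (g : Equiv.Perm X) (v w : X → ℤ) :
    dot (pull g v) w = dot v (pull g⁻¹ w) := by
  rw [← dot_pull_pull g v (pull g⁻¹ w), pull_pull_inv]

omit [DecidableEq X] in
lemma dot_pull_right (g : Equiv.Perm X) (v w : X → ℤ) :
    dot v (pull g w) = dot (pull g⁻¹ v) w := by
  rw [← dot_pull_pull g (pull g⁻¹ v) w, pull_pull_inv]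

/-- the indicator function of a point. -/
def ind (x : X) : X → ℤ := fun y => if y = x then 1 else 0

lemma dot_ind_left (x : X) (w : X → ℤ) : dot (ind x) w = w x := by
  unfold dot ind
  simp [Finset.sum_ite_eq']

lemma dot_ind_right (x : X) (v : X → ℤ) : dot v (ind x) = v x := by
  rw [dot_comm, dot_ind_left]

lemma eq_zero_of_dot_eq_zero {z : X → ℤ} (h : ∀ a, dot a z = 0) : z = 0 := by
  funext x
  have := h (ind x)
  rwa [dot_ind_left] at this

omit [Fintype X] [DecidableEq X] in
lemma pull_pow_apply (g : Equiv.Perm X) (k : ℕ) (v : X → ℤ) (x : X) :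
    pull (g ^ k) v x = v ((g ^ k) x) := rfl

/-- a periodic sequence has the same sums after a shift. -/
lemma sum_range_shift (f : ℕ → ℤ) (n : ℕ) (h : f n = f 0) :
    ∑ k ∈ Finset.range n, f (k + 1) = ∑ k ∈ Finset.range n, f k := by
  have h1 := Finset.sum_range_succ' f n
  have h2 := Finset.sum_range_succ f n
  linarith

omit [DecidableEq X] in
/-- the orbit sum `x ↦ ∑_{k < n} z (g^k x)`, `n = orderOf g`. -/
lemma orbitSum_eq_zero (g : Equiv.Perm X) (z : X → ℤ)
    (h : ∀ a, pull g a = a → dot a z = 0) (x : X) :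
    ∑ k ∈ Finset.range (orderOf g), z ((g ^ k) x) = 0 := by
  classical
  set n := orderOf g with hn
  have hgn : g ^ n = 1 := pow_orderOf_eq_one g
  let a : X → ℤ := fun y => ∑ k ∈ Finset.range n, if (g ^ k) x = y then 1 else 0
  have ha : pull g a = a := by
    funext y
    show (∑ k ∈ Finset.range n, if (g ^ k) x = g y then (1 : ℤ) else 0)
      = ∑ k ∈ Finset.range n, if (g ^ k) x = y then 1 else 0
    have key := sum_range_shift (fun k => if (g ^ k) x = g y then (1 : ℤ) else 0) n (by
      simp only [hgn, pow_zero])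
    rw [← key]
    refine Finset.sum_congr rfl fun k _ => ?_
    have : (g ^ (k + 1)) x = g y ↔ (g ^ k) x = y := by
      rw [pow_succ', Equiv.Perm.mul_apply]
      exact g.injective.eq_iff
    simp only [this]
  have h0 := h a ha
  unfold dot at h0
  have : ∑ y, a y * z y = ∑ k ∈ Finset.range n, z ((g ^ k) x) := by
    show ∑ y, (∑ k ∈ Finset.range n, if (g ^ k) x = y then (1 : ℤ) else 0) * z y = _
    simp only [Finset.sum_mul]
    rw [Finset.sum_comm]
    refine Finset.sum_congr rfl fun k _ => ?_
    simp [Finset.sum_ite_eq]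
  rw [this] at h0
  exact h0

/-- summation by parts for the weights `k`. -/
lemma sum_range_weight (f : ℕ → ℤ) (n : ℕ) :
    (∑ k ∈ Finset.range n, (k : ℤ) * f (k + 1)) - ∑ k ∈ Finset.range n, (k : ℤ) * f k
      = (n : ℤ) * f n - ∑ k ∈ Finset.range n, f (k + 1) := by
  induction n with
  | zero => simp
  | succ n ih =>
    rw [Finset.sum_range_succ, Finset.sum_range_succ, Finset.sum_range_succ]
    push_cast
    linarith

omit [DecidableEq X] in
/-- `n • z ∈ (g - 1) V` if all orbit sums of `z` vanish. -/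
lemma smul_mem_of_orbitSum (g : Equiv.Perm X) (z : X → ℤ)
    (h : ∀ x, ∑ k ∈ Finset.range (orderOf g), z ((g ^ k) x) = 0) :
    ∃ Y : X → ℤ, ((orderOf g : ℕ) : ℤ) • z = pull g Y - Y := by
  classical
  set n := orderOf g with hn
  have hgn : g ^ n = 1 := pow_orderOf_eq_one g
  refine ⟨fun x => ∑ k ∈ Finset.range n, (k : ℤ) * z ((g ^ k) x), ?_⟩
  funext x
  show (n : ℤ) * z x = (∑ k ∈ Finset.range n, (k : ℤ) * z ((g ^ k) (g x)))
      - ∑ k ∈ Finset.range n, (k : ℤ) * z ((g ^ k) x)
  have e1 : ∀ k, (g ^ k) (g x) = (g ^ (k + 1)) x := by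
    intro k; rw [pow_succ, Equiv.Perm.mul_apply]
  simp only [e1]
  have key := sum_range_weight (fun k => z ((g ^ k) x)) n
  have per : (fun k => z ((g ^ k) x)) n = (fun k => z ((g ^ k) x)) 0 := by
    show z ((g ^ n) x) = z ((g ^ 0) x)
    rw [hgn, pow_zero]
  have sh := sum_range_shift (fun k => z ((g ^ k) x)) n per
  simp only at key sh per
  rw [key, sh, h x, per]
  simp

/-- orbit representatives: a `g`-invariant function `r` with `r x` in the cycle of `x`. -/
lemma exists_rep (g : Equiv.Perm X) :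
    ∃ r : X → X, (∀ x, r (g x) = r x) ∧ ∀ x, ∃ k : ℕ, (g ^ k) (r x) = x := by
  classical
  let S : Setoid X := Equiv.Perm.SameCycle.setoid g
  refine ⟨fun x => (Quotient.mk S x).out, ?_, ?_⟩
  · intro x
    have : Quotient.mk S (g x) = Quotient.mk S x := by
      apply Quotient.sound
      show Equiv.Perm.SameCycle g (g x) x
      exact (Equiv.Perm.sameCycle_apply_left).2 (Equiv.Perm.SameCycle.refl g x)
    show (Quotient.mk S (g x)).out = (Quotient.mk S x).out
    rw [this]
  · intro x
    have : Equiv.Perm.SameCycle g (Quotient.mk S x).out x := by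
      have := Quotient.mk_out (s := S) x
      exact Quotient.exact (Quotient.out_eq (Quotient.mk S x))
    exact this.exists_nat_pow_eq

omit [DecidableEq X] in
/-- `(g - 1) V` is saturated. -/
lemma h1pd_sat (g : Equiv.Perm X) (n : ℤ) (hn : n ≠ 0) (z Y : X → ℤ)
    (h : n • z = pull g Y - Y) : ∃ y : X → ℤ, z = pull g y - y := by
  classical
  obtain ⟨r, hr1, hr2⟩ := exists_rep g
  have hstep : ∀ x, Y (g x) - Y x = n * z x := by
    intro x
    have := congrFun h x
    simp only [Pi.smul_apply, smul_eq_mul, Pi.sub_apply, pull_apply] at this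
    linarith
  have hpow : ∀ (k : ℕ) (w : X), n ∣ Y ((g ^ k) w) - Y w := by
    intro k
    induction k with
    | zero => intro w; simp
    | succ k ih =>
      intro w
      have e : (g ^ (k + 1)) w = g ((g ^ k) w) := by rw [pow_succ', Equiv.Perm.mul_apply]
      have h1 := hstep ((g ^ k) w)
      have h2 := ih w
      rw [e]
      have : Y (g ((g ^ k) w)) - Y w = n * z ((g ^ k) w) + (Y ((g ^ k) w) - Y w) := by linarith
      rw [this]
      exact dvd_add (dvd_mul_right _ _) h2
  have hdiv : ∀ x, n ∣ Y x - Y (r x) := by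
    intro x
    obtain ⟨k, hk⟩ := hr2 x
    have := hpow k (r x)
    rwa [hk] at this
  refine ⟨fun x => (Y x - Y (r x)) / n, ?_⟩
  funext x
  show z x = (Y (g x) - Y (r (g x))) / n - (Y x - Y (r x)) / n
  rw [hr1 x]
  obtain ⟨a, ha⟩ := hdiv (g x)
  obtain ⟨b, hb⟩ := hdiv x
  rw [hr1 x] at ha
  rw [ha, hb, Int.mul_ediv_cancel_left _ hn, Int.mul_ediv_cancel_left _ hn]
  have h1 := hstep x
  have : n * (a - b) = n * z x := by
    have : n * a - n * b = n * z x := by rw [← ha, ← hb]; linarith
    linarith [mul_sub n a b]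
  exact (mul_left_cancel₀ hn this).symm

omit [DecidableEq X] in
/-- **the perp lemma**: `z ⟂ V^g ⇒ z ∈ (g - 1) V`. -/
theorem h1pd_perp (g : Equiv.Perm X) (z : X → ℤ)
    (h : ∀ a, pull g a = a → dot a z = 0) : ∃ y : X → ℤ, z = pull g y - y := by
  obtain ⟨Y, hY⟩ := smul_mem_of_orbitSum g z (orbitSum_eq_zero g z h)
  refine h1pd_sat g ((orderOf g : ℕ) : ℤ) ?_ z Y hY
  exact_mod_cast (orderOf_pos g).ne'

omit [DecidableEq X] in
/-- the converse of the perp lemma. -/
lemma dot_eq_zero_of_inv (g : Equiv.Perm X) (a y : X → ℤ) (ha : pull g a = a) :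
    dot a (pull g y - y) = 0 := by
  rw [dot_sub_right]
  have : dot a (pull g y) = dot (pull g a) (pull g y) := by rw [ha]
  rw [this, dot_pull_pull, sub_self]

end Fermat.Agent.LR.PD
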