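import Fermat.Agent.LR.PD.Model

/-!
# P-LR / PD, leaf TELE, part A: the model computation (Mathlib only)

`s² = 1`, `u³ = 1` permutations of a finite set `X`; `(v, w)` a witness pair
(`(S - 1) v = (T - 1) w`), `a = (S - 1) v`, `a' = (S - 1) v'`, and `eS` a "half" of `a a'`
(`eS x + eS (s x) = a x * a' x`).  Then

  `∑ x, eS x + dot w a' = pdVal u v' w`         (`h1pd_tele_alg`).
-/

set_option autoImplicit false
set_option linter.unusedSectionVars false

namespace Fermat.Agent.LR.PD

variable {X : Type*} [Fintype X] [DecidableEq X] {s u : Equiv.Perm X}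

/-- `dot (S x) y = dot x (S y)` for an involution. -/
lemma dot_pull_invol (hs : s * s = 1) (x y : X → ℤ) : dot (pull s x) y = dot x (pull s y) := by
  have h := dot_pull_pull s x (pull s y)
  rw [pull_s_pull_s hs] at h
  exact h

omit [DecidableEq X] in
/-- twice the sum of a half. -/
lemma two_mul_sum_half (eS f : X → ℤ) (h : ∀ x, eS x + eS (s x) = f x) :
    2 * ∑ x, eS x = ∑ x, f x := by
  have h1 : ∑ x, eS (s x) = ∑ x, eS x := Equiv.sum_comp s eS
  calc 2 * ∑ x, eS x = ∑ x, eS x + ∑ x, eS (s x) := by rw [h1]; ring
    _ = ∑ x, (eS x + eS (s x)) := Finset.sum_add_distrib.symm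
    _ = ∑ x, f x := Finset.sum_congr rfl fun x _ => h x

/-- **the model computation.** -/
theorem h1pd_tele_alg (hs : s * s = 1) (hu : u * u * u = 1) {v w v' : X → ℤ}
    (hw : IsWit s u v w) (eS : X → ℤ)
    (heS : ∀ x, eS x + eS (s x) = (pull s v - v) x * (pull s v' - v') x) :
    ∑ x, eS x + dot w (pull s v' - v') = pdVal u v' w := by
  -- the `S`-invariant vector `v' + S v'` pairs to zero
  have hbd : pdVal u (v' + pull s v') w = 0 :=
    h1pd_bd_left hs hu (a := v' + pull s v') (b := 0) (by simp)
      (by rw [pull_add, pull_s_pull_s hs, add_comm]) (pull_zero u) hw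
  have hE : 2 * ∑ x, eS x = dot (pull s v - v) (pull s v' - v') := two_mul_sum_half eS _ heS
  have ha : pull s v - v = pull s (pull u w) - w := hw
  -- expand everything in terms of four numbers
  set A := dot (pull u w) v' with hA
  set B := dot (pull u w) (pull s v') with hB
  set C := dot w (pull s v') with hC
  set D := dot w v' with hD
  have e1 : dot (pull s v - v) (pull s v' - v') = A - B - C + D := by
    rw [ha, dot_sub_left, dot_sub_right, dot_sub_right, dot_pull_pull,
      dot_pull_invol hs (pull u w) v']
    ring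
  have e2 : dot w (pull s v' - v') = C - D := by rw [dot_sub_right]
  have e3 : pdVal u v' w = A - D := by
    unfold pdVal
    rw [dot_sub_right, dot_comm v' (pull u w), dot_comm v' w]
  have e4 : pdVal u (v' + pull s v') w = (A - D) + (B - C) := by
    unfold pdVal
    rw [dot_add_left, dot_sub_right, dot_sub_right, dot_comm v' (pull u w), dot_comm v' w,
      dot_comm (pull s v') (pull u w), dot_comm (pull s v') w]
  rw [e4] at hbd
  rw [e1] at hE
  rw [e2, e3]
  linarith

end Fermat.Agent.LR.PD
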