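import Fermat.Agent.LR.PD94.Heis

/-!
# P-LR / PD, leaf TELE, part B: cup-primitives along `T`

`X` an `SL(2, ℤ)`-set, `κ`, `κ'` cocycles with values in the functions `X → ℤ`, `e` a
cup-primitive (`h94lr_IsHeis`) for the multiplication of `ℤ`.

* `h1pd_heis_conj_gen` : `e (r⁻¹ t r) x₀ = e t (r x₀)` when `t` fixes `r x₀` and both cocycles
  vanish at `(t, r x₀)`;
* `h1pd_heis_T_pow`    : `e (T ^ n) x = ∑ k < n, (e T (T^-k x) + κ (T ^ k) x * κ' T (T^-k x))`;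
* `h1pd_coc_T_pow_wit` : `κ (T ^ k) x = w (T^-k x) - w x` when `κ T = (T - 1) w`;
* `h1pd_coc_T_eq_S`, `h1pd_heis_T_eq_S` : normalised cocycles and cup-primitives take the same
  values at `T` and at `S`.
-/

set_option autoImplicit false

open scoped MatrixGroups
open ModularGroup

namespace Fermat.Agent.LR.PD

open Fermat.Agent.S16.Coh Fermat.Agent.LR.PD94

variable {X : Type*} [MulAction SL(2, ℤ) X]
  {κ κ' e : SL(2, ℤ) → X → ℤ}

/-- the cup-primitive identity for the multiplication of `ℤ`, unfolded. -/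
theorem h1pd_heis_mul (he : h94lr_IsHeis (AddMonoidHom.mul (R := ℤ)) κ κ' e) (g h : SL(2, ℤ))
    (y : X) : e (g * h) y = e g y + e h (g⁻¹ • y) + κ g y * κ' h (g⁻¹ • y) :=
  he g h y

/-- conjugation formula. -/
theorem h1pd_heis_conj_gen (he : h94lr_IsHeis (AddMonoidHom.mul (R := ℤ)) κ κ' e)
    (hκ : h94_IsCocycle κ) (hκ' : h94_IsCocycle κ') (x₀ x : X) (r t : SL(2, ℤ))
    (hr : r • x₀ = x) (ht : t • x = x) (h1 : κ t x = 0) (h2 : κ' t x = 0) :
    e (r⁻¹ * t * r) x₀ = e t x := by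
  have hr' : (r⁻¹)⁻¹ • x₀ = x := by rw [inv_inv, hr]
  have ht' : t⁻¹ • x = x := by rw [inv_smul_eq_iff, ht]
  have e1 := h1pd_heis_mul he r⁻¹ (t * r) x₀
  have e2 := h1pd_heis_mul he t r x
  have e3 := h1pd_heis_mul he r⁻¹ r x₀
  have k1 := hκ' t r x
  rw [hr'] at e1 e3
  rw [ht'] at e2 k1
  rw [inv_mul_cancel, he.one hκ] at e3
  rw [mul_assoc, e1, e2, k1, h1, h2]
  linarith

/-- the value of a cup-primitive on a power of `T`. -/
theorem h1pd_heis_T_pow (he : h94lr_IsHeis (AddMonoidHom.mul (R := ℤ)) κ κ' e)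
    (hκ : h94_IsCocycle κ) (n : ℕ) (x : X) :
    e (T ^ n) x = ∑ k ∈ Finset.range n,
      (e T (((T : SL(2, ℤ)) ^ k)⁻¹ • x) + κ (T ^ k) x * κ' T (((T : SL(2, ℤ)) ^ k)⁻¹ • x)) := by
  induction n with
  | zero => simp [he.one hκ]
  | succ n ih =>
    rw [pow_succ, h1pd_heis_mul he (T ^ n) T x, ih, Finset.sum_range_succ]
    ring

/-- the value of a cocycle on a power of `T`, when `κ T = (T - 1) w`. -/
theorem h1pd_coc_T_pow_wit (hκ : h94_IsCocycle κ) (w : X → ℤ)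
    (hT : ∀ y, κ T y = w ((T : SL(2, ℤ))⁻¹ • y) - w y) (k : ℕ) (x : X) :
    κ (T ^ k) x = w (((T : SL(2, ℤ)) ^ k)⁻¹ • x) - w x := by
  induction k with
  | zero => simp [hκ.one]
  | succ k ih =>
    rw [pow_succ, hκ (T ^ k) T x, ih, hT, mul_inv_rev, mul_smul]
    ring

/-- a normalised cocycle takes the same values at `T` and at `S`. -/
theorem h1pd_coc_T_eq_S (hκ : h94_IsCocycle κ)
    (hκS : ∀ x, κ S x + κ S ((S : SL(2, ℤ)) • x) = 0) (hκU : κ (S * T) = 0) (y : X) :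
    κ T y = κ S y := by
  rw [hκ.apply_T, hκU]
  have := hκS y
  simp only [Pi.zero_apply]
  linarith

/-- a normalised cup-primitive takes the same values at `T` and at `S`. -/
theorem h1pd_heis_T_eq_S
    (he : h94lr_IsHeis (AddMonoidHom.mul (R := ℤ)) κ κ' e)
    (hκ : h94_IsCocycle κ)
    (hκS : ∀ x, κ S x + κ S ((S : SL(2, ℤ)) • x) = 0)
    (hκ'S : ∀ x, κ' S x + κ' S ((S : SL(2, ℤ)) • x) = 0)
    (hκ'U : κ' (S * T) = 0) (heU : e (S * T) = 0)
    (heS : ∀ y, e S y + e S ((S : SL(2, ℤ)) • y) = κ S y * κ' S y) (y : X) :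
    e T y = e S y := by
  have hT : (T : SL(2, ℤ)) = S⁻¹ * (S * T) := by rw [inv_mul_cancel_left]
  have e1 := h1pd_heis_mul he S⁻¹ (S * T) y
  rw [← hT, heU, hκ'U] at e1
  simp only [Pi.zero_apply, add_zero, mul_zero] at e1
  have e2 := h1pd_heis_mul he S⁻¹ S y
  rw [inv_mul_cancel, he.one hκ, inv_inv, hκ.inv] at e2
  have h3 := hκS y
  have h4 := hκ'S y
  have h5 := heS y
  have hk : κ S ((S : SL(2, ℤ)) • y) = - κ S y := by linarith
  have hk' : κ' S ((S : SL(2, ℤ)) • y) = - κ' S y := by linarith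
  rw [hk, hk'] at e2
  rw [e1]
  have h6 : - - κ S y * - κ' S y = - (κ S y * κ' S y) := by ring
  rw [h6] at e2
  linarith

end Fermat.Agent.LR.PD
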