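import Fermat.Agent.LR.PD.Defs
import Fermat.Agent.LR.PD.TeleAlg
import Fermat.Agent.LR.PD.TeleCoh

/-!
# P-LR / PD, leaf TELE: the cusp sum of a Heisenberg cochain is the model pairing

`h1pd_tele : h1pd_TeleStatement`: for `v ~ φ` with witness `w`, `v' ~ ψ` with a witness, and
every Heisenberg cochain `c` of `(φ, ψ)`:  `h94lr_cuspSum Γ c = pdVal (h1pd_permU Γ) v' w`.
-/

set_option autoImplicit false

open scoped MatrixGroups
open ModularGroup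

namespace Fermat.Agent.LR.PD

open Fermat.Agent.S16.Coh Fermat.Agent.LR.PD94 ModularCurve.Period

section Perms

variable (Γ : Subgroup SL(2, ℤ))

theorem h1pd_permS_mul_self (hneg : ∀ x : SL(2, ℤ) ⧸ Γ, (-1 : SL(2, ℤ)) • x = x) :
    h1pd_permS Γ * h1pd_permS Γ = 1 := by
  apply Equiv.ext
  intro x
  show (S : SL(2, ℤ))⁻¹ • ((S : SL(2, ℤ))⁻¹ • x) = x
  rw [h94_S_inv_smul hneg, h94_S_inv_smul hneg, ← mul_smul, ← pow_two, h94_S_sq, hneg]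

theorem h1pd_permU_mul_self (hneg : ∀ x : SL(2, ℤ) ⧸ Γ, (-1 : SL(2, ℤ)) • x = x) :
    h1pd_permU Γ * h1pd_permU Γ * h1pd_permU Γ = 1 := by
  apply Equiv.ext
  intro x
  show ((S : SL(2, ℤ)) * T)⁻¹ • (((S : SL(2, ℤ)) * T)⁻¹ • (((S : SL(2, ℤ)) * T)⁻¹ • x)) = x
  rw [inv_smul_eq_iff, inv_smul_eq_iff, inv_smul_eq_iff, h94_U_cube_smul hneg]

theorem h1pd_permS_apply' (hneg : ∀ x : SL(2, ℤ) ⧸ Γ, (-1 : SL(2, ℤ)) • x = x)
    (x : SL(2, ℤ) ⧸ Γ) : h1pd_permS Γ x = (S : SL(2, ℤ)) • x :=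
  h94_S_inv_smul hneg x

/-- `permU (permS y) = T⁻¹ y`. -/
theorem h1pd_permU_permS (hneg : ∀ x : SL(2, ℤ) ⧸ Γ, (-1 : SL(2, ℤ)) • x = x)
    (y : SL(2, ℤ) ⧸ Γ) : h1pd_permU Γ (h1pd_permS Γ y) = (T : SL(2, ℤ))⁻¹ • y := by
  show ((S : SL(2, ℤ)) * T)⁻¹ • ((S : SL(2, ℤ))⁻¹ • y) = (T : SL(2, ℤ))⁻¹ • y
  rw [mul_inv_rev, mul_smul, ← mul_smul (S : SL(2, ℤ))⁻¹ (S : SL(2, ℤ))⁻¹ y, ← mul_inv_rev,
    ← pow_two, h94_S_sq]
  congr 1
  rw [inv_smul_eq_iff, hneg]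

end Perms

/-- **TELE.** -/
theorem h1pd_tele : h1pd_TeleStatement := by
  intro Γ _ _ hΓ v w v' w' φ ψ c hv hv' hw hw' hc
  obtain ⟨κ, hκ, hκSv, hκU, hκφ⟩ := hv
  obtain ⟨κ', hκ', hκ'Sv, hκ'U, hκ'ψ⟩ := hv'
  have hneg := h94lr_neg_one_smul Γ hΓ
  have hs := h1pd_permS_mul_self Γ hneg
  have hu := h1pd_permU_mul_self Γ hneg
  -- values at `S`
  have hκSx : ∀ x, κ S x = v ((S : SL(2, ℤ)) • x) - v x := by
    intro x
    rw [hκSv]
    show v (h1pd_permS Γ x) - v x = _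
    rw [h1pd_permS_apply' Γ hneg]
  have hκ'Sx : ∀ x, κ' S x = v' ((S : SL(2, ℤ)) • x) - v' x := by
    intro x
    rw [hκ'Sv]
    show v' (h1pd_permS Γ x) - v' x = _
    rw [h1pd_permS_apply' Γ hneg]
  have hSS : ∀ x : SL(2, ℤ) ⧸ Γ, (S : SL(2, ℤ)) • ((S : SL(2, ℤ)) • x) = x := by
    intro x
    rw [← mul_smul, ← pow_two, h94_S_sq, hneg]
  have hκS : ∀ x, κ S x + κ S ((S : SL(2, ℤ)) • x) = 0 := by
    intro x
    rw [hκSx, hκSx, hSS]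
    ring
  have hκ'S : ∀ x, κ' S x + κ' S ((S : SL(2, ℤ)) • x) = 0 := by
    intro x
    rw [hκ'Sx, hκ'Sx, hSS]
    ring
  -- a half of `κ S * κ' S`
  obtain ⟨eS, heS⟩ := h94lr_exists_half (fun x : SL(2, ℤ) ⧸ Γ => (S : SL(2, ℤ)) • x) hSS
    (fun y => κ S y * κ' S y)
    (fun x => by
      show κ S ((S : SL(2, ℤ)) • x) * κ' S ((S : SL(2, ℤ)) • x) = κ S x * κ' S x
      have h1 := hκS x
      have h2 := hκ'S x
      have e1 : κ S ((S : SL(2, ℤ)) • x) = - κ S x := by linarith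
      have e2 : κ' S ((S : SL(2, ℤ)) • x) = - κ' S x := by linarith
      rw [e1, e2]
      ring)
    (fun x hx => by
      have hx' : (S : SL(2, ℤ)) • x = x := hx
      show κ S x * κ' S x = 0
      rw [hκSx, hx']
      ring)
  -- the cup-primitive
  obtain ⟨e, he, heS', heU⟩ := h94lr_exists_heis_normalized (μ := AddMonoidHom.mul (R := ℤ))
    hneg hκ hκ' hκS hκ'S hκU eS heS
  have heSS : ∀ y, e S y + e S ((S : SL(2, ℤ)) • y) = κ S y * κ' S y := by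
    intro y
    rw [heS']
    exact heS y
  -- the model Heisenberg cochain
  have hc₀ : h94lr_IsHeisHom Γ (AddMonoidHom.mul (R := ℤ)) φ ψ
      (fun γ : Γ => e (γ : SL(2, ℤ)) (h94lr_x0 Γ)) := by
    intro γ γ'
    have h := h94lr_heis_stab he (h94lr_x0 Γ) (γ : SL(2, ℤ)) (γ' : SL(2, ℤ))
      (h94lr_smul_x0 Γ γ.2)
    rw [hκφ, hκ'ψ] at h
    exact h
  rw [h94lr_cuspSum_indep Γ (AddMonoidHom.mul (R := ℤ)) hΓ (fun a h => by omega)
    (fun a h => by omega) hc hc₀]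
  -- values at `T`
  have hκT : ∀ y, κ T y = κ S y := h1pd_coc_T_eq_S hκ hκS hκU
  have hκ'T : ∀ y, κ' T y = κ' S y := h1pd_coc_T_eq_S hκ' hκ'S hκ'U
  have heT : ∀ y, e T y = e S y := h1pd_heis_T_eq_S he hκ hκS hκ'S hκ'U heU heSS
  have hTw : ∀ y, κ T y = w ((T : SL(2, ℤ))⁻¹ • y) - w y := by
    intro y
    rw [hκT, hκSv]
    have h := congrFun hw y
    show pull (h1pd_permS Γ) v y - v y = _
    have h' : pull (h1pd_permS Γ) v y - v y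
        = pull (h1pd_permS Γ) (pull (h1pd_permU Γ) w) y - w y := h
    rw [h']
    show w (h1pd_permU Γ (h1pd_permS Γ y)) - w y = _
    rw [h1pd_permU_permS Γ hneg]
  have hTw' : ∀ y, κ' T y = w' ((T : SL(2, ℤ))⁻¹ • y) - w' y := by
    intro y
    rw [hκ'T, hκ'Sv]
    have h := congrFun hw' y
    show pull (h1pd_permS Γ) v' y - v' y = _
    have h' : pull (h1pd_permS Γ) v' y - v' y
        = pull (h1pd_permS Γ) (pull (h1pd_permU Γ) w') y - w' y := h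
    rw [h']
    show w' (h1pd_permU Γ (h1pd_permS Γ y)) - w' y = _
    rw [h1pd_permU_permS Γ hneg]
  -- the value at a cusp generator
  have hcusp : ∀ ω : h94lr_Cusp Γ, e ((h94lr_cuspGen Γ ω : Γ) : SL(2, ℤ)) (h94lr_x0 Γ)
      = ∑ k ∈ Finset.range (h94lr_cuspWidth Γ ω),
          (e S ((h94lr_tau Γ ^ k) (h94lr_cuspPt Γ ω))
            + w ((h94lr_tau Γ ^ k) (h94lr_cuspPt Γ ω))
              * κ' S ((h94lr_tau Γ ^ k) (h94lr_cuspPt Γ ω))) := by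
    intro ω
    set x := h94lr_cuspPt Γ ω with hx
    set n := h94lr_cuspWidth Γ ω with hn
    have hfix : ((T : SL(2, ℤ)) ^ n) • x = x := h94lr_T_pow_width_smul Γ ω
    have hfix' : ((T : SL(2, ℤ)) ^ n)⁻¹ • x = x := by rw [inv_smul_eq_iff, hfix]
    have hr : (Quotient.out x : SL(2, ℤ)) • h94lr_x0 Γ = x := by
      show (Quotient.out x : SL(2, ℤ)) • ((1 : SL(2, ℤ)) : SL(2, ℤ) ⧸ Γ) = x
      rw [MulAction.Quotient.smul_mk, smul_eq_mul, mul_one]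
      exact Quotient.out_eq' x
    have k1 : κ (T ^ n) x = 0 := by
      rw [h1pd_coc_T_pow_wit hκ w hTw, hfix', sub_self]
    have k2 : κ' (T ^ n) x = 0 := by
      rw [h1pd_coc_T_pow_wit hκ' w' hTw', hfix', sub_self]
    have h1 : e ((h94lr_cuspGen Γ ω : Γ) : SL(2, ℤ)) (h94lr_x0 Γ) = e (T ^ n) x :=
      h1pd_heis_conj_gen he hκ hκ' (h94lr_x0 Γ) x (Quotient.out x) (T ^ n) hr hfix k1 k2
    rw [h1, h1pd_heis_T_pow he hκ]
    have h2 : ∑ k ∈ Finset.range n, κ' T (((T : SL(2, ℤ)) ^ k)⁻¹ • x) = 0 := by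
      rw [← hκ'.apply_T_pow, k2]
    have h3 : ∀ k ∈ Finset.range n,
        e T (((T : SL(2, ℤ)) ^ k)⁻¹ • x) + κ (T ^ k) x * κ' T (((T : SL(2, ℤ)) ^ k)⁻¹ • x)
        = (e S ((h94lr_tau Γ ^ k) x) + w ((h94lr_tau Γ ^ k) x) * κ' S ((h94lr_tau Γ ^ k) x))
          - w x * κ' T (((T : SL(2, ℤ)) ^ k)⁻¹ • x) := by
      intro k _
      rw [h94lr_tau_pow_apply, heT, h1pd_coc_T_pow_wit hκ w hTw, hκ'T]
      ring
    rw [Finset.sum_congr rfl h3, Finset.sum_sub_distrib, ← Finset.mul_sum, h2, mul_zero, sub_zero]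
  -- sum over the cusps
  have hsum : h94lr_cuspSum Γ (fun γ : Γ => e (γ : SL(2, ℤ)) (h94lr_x0 Γ))
      = ∑ x, (e S x + w x * κ' S x) := by
    rw [h94lr_sum_orbits (h94lr_tau Γ) (fun x => e S x + w x * κ' S x), h94lr_cuspSum]
    exact Finset.sum_congr rfl fun ω _ => hcusp ω
  rw [hsum, Finset.sum_add_distrib]
  have hdot : ∑ x, w x * κ' S x = dot w (pull (h1pd_permS Γ) v' - v') := by
    rw [hκ'Sv]
    rfl
  rw [hdot, heS']
  refine h1pd_tele_alg hs hu hw eS (fun x => ?_)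
  rw [h1pd_permS_apply' Γ hneg, heS x, hκSv, hκ'Sv]

end Fermat.Agent.LR.PD
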